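import Mathlib

set_option autoImplicit false

namespace Fermat.Agent.S51

/-- Squarefree decomposition adapted to `A * B = f ^ 2`: the primes of the squarefree part of `A`
divide `B`. -/
theorem nat_sqfree_decomp (A B f : ℕ) (hA : A ≠ 0) (h : A * B = f ^ 2) :
    ∃ s b : ℕ, Squarefree s ∧ b ^ 2 * s = A ∧ ∀ p : ℕ, p.Prime → p ∣ s → p ∣ B := by
  obtain ⟨s, b, hb, hs⟩ := Nat.sq_mul_squarefree A
  refine ⟨s, b, hs, hb, ?_⟩
  intro p hp hps
  have hb0 : b ≠ 0 := by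
    rintro rfl
    apply hA
    rw [← hb]; simp
  have hbf : b ∣ f := by
    have : b ^ 2 ∣ f ^ 2 := by
      rw [← h, ← hb]
      exact ⟨s * B, by ring⟩
    exact (Nat.pow_dvd_pow_iff (by norm_num)).1 this
  obtain ⟨g, rfl⟩ := hbf
  have h1 : s * B = g ^ 2 := by
    have : b ^ 2 * (s * B) = b ^ 2 * g ^ 2 := by
      rw [← mul_assoc, hb, h]; ring
    exact Nat.eq_of_mul_eq_mul_left (by positivity) this
  have hpg : p ∣ g := by
    have : p ∣ g ^ 2 := by rw [← h1]; exact Dvd.dvd.mul_right hps B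
    exact hp.dvd_of_dvd_pow this
  obtain ⟨s', rfl⟩ := hps
  obtain ⟨g', rfl⟩ := hpg
  have h2 : s' * B = p * g' ^ 2 := by
    have : p * (s' * B) = p * (p * g' ^ 2) := by
      rw [← mul_assoc, h1]; ring
    exact Nat.eq_of_mul_eq_mul_left hp.pos this
  have h3 : p ∣ s' * B := by rw [h2]; exact Dvd.intro _ rfl
  rcases (Nat.Prime.dvd_mul hp).1 h3 with h4 | h4
  · exfalso
    obtain ⟨s'', rfl⟩ := h4
    have := (Nat.squarefree_iff_prime_squarefree.1 hs) p hp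
    exact this ⟨s'', by ring⟩
  · exact h4

/-- Integer version. -/
theorem int_sqfree_decomp (A B f : ℤ) (hA : A ≠ 0) (h : A * B = f ^ 2) :
    ∃ (s : ℕ) (b : ℤ), Squarefree s ∧ b ≠ 0 ∧ (A = s * b ^ 2 ∨ A = -(s * b ^ 2)) ∧
      ∀ p : ℕ, p.Prime → p ∣ s → (p : ℤ) ∣ B := by
  have h' : A.natAbs * B.natAbs = f.natAbs ^ 2 := by
    rw [← Int.natAbs_mul, h, Int.natAbs_pow]
  obtain ⟨s, b, hs, hb, hp⟩ := nat_sqfree_decomp A.natAbs B.natAbs f.natAbs
    (Int.natAbs_ne_zero.2 hA) h'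
  refine ⟨s, b, hs, ?_, ?_, ?_⟩
  · rintro hb0
    have : b = 0 := by exact_mod_cast hb0
    subst this
    apply hA
    have : A.natAbs = 0 := by rw [← hb]; simp
    exact Int.natAbs_eq_zero.1 this
  · have : (A.natAbs : ℤ) = s * (b : ℤ) ^ 2 := by
      rw [← hb]; push_cast; ring
    rcases Int.natAbs_eq A with h1 | h1
    · left; rw [h1, this]
    · right; rw [h1, this]
  · intro p hpp hps
    exact Int.natCast_dvd.2 (hp p hpp hps)

theorem step1 (m n f : ℤ) (hn : 0 < n) (hmn : IsCoprime m n) (hf : f ≠ 0)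
    (h : n * (m * (m - n) * (m - 81 * n)) = f ^ 2) :
    ∃ e g : ℤ, e ≠ 0 ∧ g ≠ 0 ∧ n = e ^ 2 ∧ m * (m - n) * (m - 81 * n) = g ^ 2 := by
  have c1 : IsCoprime n m := hmn.symm
  have c2 : IsCoprime n (m - n) := by
    have := c1.add_mul_left_right (-1)
    simpa [sub_eq_add_neg] using this
  have c3 : IsCoprime n (m - 81 * n) := by
    have := c1.add_mul_left_right (-81)
    have e : m + n * (-81) = m - 81 * n := by ring
    rwa [e] at this
  have c : IsCoprime n (m * (m - n) * (m - 81 * n)) := (c1.mul_right c2).mul_right c3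
  obtain ⟨e, he | he⟩ := Int.sq_of_isCoprime c h
  · have he0 : e ≠ 0 := by rintro rfl; simp at he; omega
    have hef : e ∣ f := by
      have : e ^ 2 ∣ f ^ 2 := by rw [← h, he]; exact Dvd.intro _ rfl
      exact (Int.pow_dvd_pow_iff (by norm_num)).1 this
    obtain ⟨g, rfl⟩ := hef
    refine ⟨e, g, he0, ?_, he, ?_⟩
    · rintro rfl; simp at hf
    · have : e ^ 2 * (m * (m - n) * (m - 81 * n)) = e ^ 2 * g ^ 2 := by
        calc e ^ 2 * (m * (m - n) * (m - 81 * n)) = n * (m * (m - n) * (m - 81 * n)) := by rw [← he]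
          _ = (e * g) ^ 2 := h
          _ = e ^ 2 * g ^ 2 := by ring
      exact mul_left_cancel₀ (pow_ne_zero 2 he0) this
  · exfalso
    have : 0 ≤ e ^ 2 := sq_nonneg e
    omega

theorem sqfree_dvd_of_primes (s : ℕ) (T : Finset ℕ) (hs : Squarefree s)
    (h : ∀ p : ℕ, p.Prime → p ∣ s → p ∈ T) : s ∣ ∏ p ∈ T, p := by
  rw [← Nat.prod_primeFactors_of_squarefree hs]
  apply Finset.prod_dvd_prod_of_subset
  intro p hp
  exact h p (Nat.prime_of_mem_primeFactors hp) (Nat.dvd_of_mem_primeFactors hp)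

theorem sqfree_three (s : ℕ) (hs : Squarefree s)
    (h : ∀ p : ℕ, p.Prime → p ∣ s → p = 3) : s = 1 ∨ s = 3 := by
  have h1 : s ∣ 3 := by
    have := sqfree_dvd_of_primes s {3} hs (fun p hp hps => by simp [h p hp hps])
    simpa using this
  have h2 : s ≤ 3 := Nat.le_of_dvd (by norm_num) h1
  interval_cases s <;> simp_all

theorem sqfree_two_five (s : ℕ) (hs : Squarefree s)
    (h : ∀ p : ℕ, p.Prime → p ∣ s → p = 2 ∨ p = 5) : s = 1 ∨ s = 2 ∨ s = 5 ∨ s = 10 := by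
  have h1 : s ∣ 10 := by
    have := sqfree_dvd_of_primes s {2, 5} hs (fun p hp hps => by
      rcases h p hp hps with h | h <;> simp [h])
    simpa using this
  have h2 : s ≤ 10 := Nat.le_of_dvd (by norm_num) h1
  interval_cases s <;> omega

theorem not_dvd_both {m n : ℤ} (h : IsCoprime m n) {p : ℕ} (hp : p.Prime)
    (h1 : (p : ℤ) ∣ m) (h2 : (p : ℤ) ∣ n) : False :=
  (Nat.prime_iff_prime_int.1 hp).not_isUnit (h.isUnit_of_dvd' h1 h2)

theorem step2 (m n g : ℤ) (hn : 0 < n) (hmn : IsCoprime m n) (hg : g ≠ 0)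
    (h : m * (m - n) * (m - 81 * n) = g ^ 2) :
    ∃ (s₁ a δ b : ℤ), a ≠ 0 ∧ b ≠ 0 ∧ (s₁ = 1 ∨ s₁ = 3) ∧ m = s₁ * a ^ 2 ∧ m - n = δ * b ^ 2 ∧
      (δ = 1 ∨ δ = 2 ∨ δ = 5 ∨ δ = 10 ∨ δ = -1 ∨ δ = -2 ∨ δ = -5 ∨ δ = -10) := by
  have hg2 : 0 < g ^ 2 := by positivity
  have hm0 : m ≠ 0 := by rintro rfl; simp at h; exact hg (pow_eq_zero_iff (by norm_num) |>.1 h.symm)
  have hmn0 : m - n ≠ 0 := by
    intro h0; rw [h0] at h; simp at h; exact hg (pow_eq_zero_iff (by norm_num) |>.1 h.symm)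
  -- sign of m
  have hmpos : 0 < m := by
    by_contra hneg
    have h1 : m < 0 := lt_of_le_of_ne (not_lt.1 hneg) hm0
    have h2 : m - n < 0 := by linarith
    have h3 : m - 81 * n < 0 := by linarith
    have h4 : 0 < m * (m - n) := mul_pos_of_neg_of_neg h1 h2
    have h5 : m * (m - n) * (m - 81 * n) < 0 := mul_neg_of_pos_of_neg h4 h3
    linarith
  obtain ⟨s₁, a, hs₁, ha, hma, hp₁⟩ := int_sqfree_decomp m ((m - n) * (m - 81 * n)) g hm0
    (by rw [← h]; ring)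
  obtain ⟨s₂, b, hs₂, hb, hmb, hp₂⟩ := int_sqfree_decomp (m - n) (m * (m - 81 * n)) g hmn0
    (by rw [← h]; ring)
  have hs₁' : s₁ = 1 ∨ s₁ = 3 := by
    apply sqfree_three s₁ hs₁
    intro p hp hps
    have hpm : (p : ℤ) ∣ m := by
      have : (p : ℤ) ∣ (s₁ : ℤ) := Int.natCast_dvd_natCast.2 hps
      rcases hma with h1 | h1 <;> rw [h1]
      · exact Dvd.dvd.mul_right this _
      · exact (Dvd.dvd.mul_right this _).neg_right
    rcases (Nat.prime_iff_prime_int.1 hp).dvd_or_dvd (hp₁ p hp hps) with h1 | h1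
    · exfalso
      apply not_dvd_both hmn hp hpm
      have := dvd_sub hpm h1
      simpa using this
    · have h2 : (p : ℤ) ∣ 81 * n := by
        have := dvd_sub hpm h1
        simpa using this
      rcases (Nat.prime_iff_prime_int.1 hp).dvd_or_dvd h2 with h3 | h3
      · have h4 : p ∣ 3 ^ 4 := by
          have : (p : ℤ) ∣ ((3 ^ 4 : ℕ) : ℤ) := by norm_num; exact h3
          exact Int.natCast_dvd_natCast.1 this
        have h5 : p ∣ 3 := hp.dvd_of_dvd_pow h4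
        exact (Nat.prime_dvd_prime_iff_eq hp Nat.prime_three).1 h5
      · exact (not_dvd_both hmn hp hpm h3).elim
  have hs₂' : s₂ = 1 ∨ s₂ = 2 ∨ s₂ = 5 ∨ s₂ = 10 := by
    apply sqfree_two_five s₂ hs₂
    intro p hp hps
    have hpm : (p : ℤ) ∣ m - n := by
      have : (p : ℤ) ∣ (s₂ : ℤ) := Int.natCast_dvd_natCast.2 hps
      rcases hmb with h1 | h1 <;> rw [h1]
      · exact Dvd.dvd.mul_right this _
      · exact (Dvd.dvd.mul_right this _).neg_right
    rcases (Nat.prime_iff_prime_int.1 hp).dvd_or_dvd (hp₂ p hp hps) with h1 | h1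
    · exfalso
      apply not_dvd_both hmn hp h1
      have := dvd_sub h1 hpm
      simpa using this
    · have h2 : (p : ℤ) ∣ 80 * n := by
        have := dvd_sub hpm h1
        have e : m - n - (m - 81 * n) = 80 * n := by ring
        rwa [e] at this
      rcases (Nat.prime_iff_prime_int.1 hp).dvd_or_dvd h2 with h3 | h3
      · have h4 : p ∣ 2 ^ 4 * 5 := by
          have : (p : ℤ) ∣ ((2 ^ 4 * 5 : ℕ) : ℤ) := by norm_num; exact h3
          exact Int.natCast_dvd_natCast.1 this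
        rcases (Nat.Prime.dvd_mul hp).1 h4 with h5 | h5
        · left
          exact (Nat.prime_dvd_prime_iff_eq hp Nat.prime_two).1 (hp.dvd_of_dvd_pow h5)
        · right
          exact (Nat.prime_dvd_prime_iff_eq hp Nat.prime_five).1 h5
      · exfalso
        apply not_dvd_both hmn hp _ h3
        have := dvd_add hpm h3
        simpa using this
  have hma' : m = s₁ * a ^ 2 := by
    rcases hma with h1 | h1
    · exact h1
    · exfalso
      have : 0 ≤ (s₁ : ℤ) * a ^ 2 := by positivity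
      linarith
  refine ⟨s₁, a, ?_⟩
  rcases hmb with h1 | h1
  · refine ⟨s₂, b, ha, hb, ?_, hma', h1, ?_⟩
    · rcases hs₁' with h | h <;> simp [h]
    · rcases hs₂' with h | h | h | h <;> simp [h]
  · refine ⟨-s₂, b, ha, hb, ?_, hma', by rw [h1]; ring, ?_⟩
    · rcases hs₁' with h | h <;> simp [h]
    · rcases hs₂' with h | h | h | h <;> simp [h]

theorem key3a : ∀ δ e b a g : ZMod 3, e ≠ 0 → -e ^ 2 = δ * b ^ 2 → δ * a ^ 2 = g ^ 2 →
    a = 0 ∧ g = 0 := by decide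

theorem key3b : ∀ δ e b : ZMod 3, e ≠ 0 → -e ^ 2 = δ * b ^ 2 → δ * e ^ 2 ≠ 0 := by decide

theorem three_excl (a e b g δ : ℤ) (he : ¬ (3 : ℤ) ∣ e) (h1 : 3 * a ^ 2 - e ^ 2 = δ * b ^ 2)
    (h2 : δ * (a ^ 2 - 27 * e ^ 2) = g ^ 2) : False := by
  have he' : (e : ZMod 3) ≠ 0 := by
    intro h; exact he ((ZMod.intCast_zmod_eq_zero_iff_dvd e 3).1 h)
  have three0 : (3 : ZMod 3) = 0 := by decide
  have t27 : (27 : ZMod 3) = 0 := by decide
  have h1' : -(e : ZMod 3) ^ 2 = δ * b ^ 2 := by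
    have := congrArg (Int.cast : ℤ → ZMod 3) h1
    push_cast at this
    rw [three0] at this
    simpa using this
  have h2' : (δ : ZMod 3) * a ^ 2 = g ^ 2 := by
    have := congrArg (Int.cast : ℤ → ZMod 3) h2
    push_cast at this
    rw [t27] at this
    simpa using this
  obtain ⟨ha, hg⟩ := key3a _ _ _ _ _ he' h1' h2'
  obtain ⟨a1, rfl⟩ := (ZMod.intCast_zmod_eq_zero_iff_dvd a 3).1 ha
  obtain ⟨g1, rfl⟩ := (ZMod.intCast_zmod_eq_zero_iff_dvd g 3).1 hg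
  have h3 : δ * (a1 ^ 2 - 3 * e ^ 2) = g1 ^ 2 := by
    have : 9 * (δ * (a1 ^ 2 - 3 * e ^ 2)) = 9 * g1 ^ 2 := by
      have e1 : δ * ((((3:ℕ):ℤ) * a1) ^ 2 - 27 * e ^ 2) = 9 * (δ * (a1 ^ 2 - 3 * e ^ 2)) := by
        push_cast; ring
      have e2 : (((3:ℕ):ℤ) * g1) ^ 2 = 9 * g1 ^ 2 := by push_cast; ring
      rw [← e1, h2, e2]
    linarith
  have h3' : (δ : ZMod 3) * a1 ^ 2 = g1 ^ 2 := by
    have := congrArg (Int.cast : ℤ → ZMod 3) h3
    push_cast at this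
    rw [three0] at this
    simpa using this
  obtain ⟨ha1, hg1⟩ := key3a _ _ _ _ _ he' h1' h3'
  obtain ⟨a2, rfl⟩ := (ZMod.intCast_zmod_eq_zero_iff_dvd a1 3).1 ha1
  obtain ⟨g2, rfl⟩ := (ZMod.intCast_zmod_eq_zero_iff_dvd g1 3).1 hg1
  have h4 : δ * (3 * a2 ^ 2 - e ^ 2) = 3 * g2 ^ 2 := by
    have : 3 * (δ * (3 * a2 ^ 2 - e ^ 2)) = 3 * (3 * g2 ^ 2) := by
      have e1 : δ * ((((3:ℕ):ℤ) * a2) ^ 2 - 3 * e ^ 2) = 3 * (δ * (3 * a2 ^ 2 - e ^ 2)) := by
        push_cast; ring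
      have e2 : (((3:ℕ):ℤ) * g2) ^ 2 = 3 * (3 * g2 ^ 2) := by push_cast; ring
      rw [← e1, h3, e2]
    linarith
  have h4' : (δ : ZMod 3) * e ^ 2 = 0 := by
    have := congrArg (Int.cast : ℤ → ZMod 3) h4
    push_cast at this
    rw [three0] at this
    simpa using this
  exact key3b _ _ _ he' h1' h4'

theorem key4 : ∀ G X d e : ZMod 4, (e = 1 ∨ e = 3) → (d = 1 ∨ d = 3) →
    G ^ 2 ≠ X ^ 2 - 10 * d * e ^ 2 := by decide

theorem odd_cast_zmod4 (e : ℤ) (he : Odd e) : (e : ZMod 4) = 1 ∨ (e : ZMod 4) = 3 := by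
  obtain ⟨k, rfl⟩ := he
  have : ∀ k : ZMod 4, 2 * k + 1 = 1 ∨ 2 * k + 1 = 3 := by decide
  push_cast
  exact this _

theorem two_excl (a e b g d : ℤ) (hd : Odd d) (hae : IsCoprime a e)
    (h1 : a ^ 2 - e ^ 2 = 2 * d * b ^ 2) (h2 : 2 * d * (a ^ 2 - 81 * e ^ 2) = g ^ 2) : False := by
  have hpar : Even (a ^ 2 - e ^ 2) := by rw [h1, mul_assoc]; exact even_two_mul _
  have hiff : Even a ↔ Even e := by
    have := Int.even_sub.1 hpar
    simpa [Int.even_pow] using this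
  have hao : Odd a := by
    by_contra hne
    have hea : Even a := Int.not_odd_iff_even.1 hne
    have hee : Even e := hiff.1 hea
    have h2a : (2 : ℤ) ∣ a := hea.two_dvd
    have h2e : (2 : ℤ) ∣ e := hee.two_dvd
    have := hae.isUnit_of_dvd' h2a h2e
    exact absurd this (by decide)
  have heo : Odd e := by
    by_contra hne
    have hee : Even e := Int.not_odd_iff_even.1 hne
    exact (Int.not_even_iff_odd.2 hao) (hiff.2 hee)
  obtain ⟨A, hA⟩ := hao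
  obtain ⟨E, hE⟩ := heo
  -- b is even
  have hb : Even b := by
    have h3 : d * b ^ 2 = 2 * (A * (A + 1) - E * (E + 1)) := by
      have : 2 * (d * b ^ 2) = 2 * (2 * (A * (A + 1) - E * (E + 1))) := by
        rw [← mul_assoc, ← h1, hA, hE]; ring
      linarith
    have h4 : Even (d * b ^ 2) := by rw [h3]; exact even_two_mul _
    rcases Int.even_mul.1 h4 with h5 | h5
    · exact absurd h5 (Int.not_even_iff_odd.2 hd)
    · exact (Int.even_pow.1 h5).1
  obtain ⟨B, hB⟩ := hb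
  have hB' : b = 2 * B := by rw [hB]; ring
  have h5 : g ^ 2 = 4 ^ 2 * ((d * B) ^ 2 - 10 * d * e ^ 2) := by
    have : a ^ 2 - 81 * e ^ 2 = 2 * d * b ^ 2 - 80 * e ^ 2 := by rw [← h1]; ring
    rw [← h2, this, hB']; ring
  have h6 : (4 : ℤ) ∣ g := by
    have : (4 : ℤ) ^ 2 ∣ g ^ 2 := by rw [h5]; exact Dvd.intro _ rfl
    exact (Int.pow_dvd_pow_iff (by norm_num)).1 this
  obtain ⟨G, rfl⟩ := h6
  have h7 : G ^ 2 = (d * B) ^ 2 - 10 * d * e ^ 2 := by
    have : (4 : ℤ) ^ 2 * G ^ 2 = 4 ^ 2 * ((d * B) ^ 2 - 10 * d * e ^ 2) := by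
      rw [← h5]; ring
    linarith
  have h8 := congrArg (Int.cast : ℤ → ZMod 4) h7
  push_cast at h8
  exact key4 _ _ _ _ (odd_cast_zmod4 e ⟨E, hE⟩) (odd_cast_zmod4 d hd) h8


theorem classify_int (m n f : ℤ) (hn : 0 < n) (hmn : IsCoprime m n) (hf : f ≠ 0)
    (h : n * (m * (m - n) * (m - 81 * n)) = f ^ 2) :
    ∃ a e b δ : ℤ, a ≠ 0 ∧ e ≠ 0 ∧ b ≠ 0 ∧ m = a ^ 2 ∧ n = e ^ 2 ∧ m - n = δ * b ^ 2 ∧
      (δ = 1 ∨ δ = -1 ∨ δ = 5 ∨ δ = -5) := by
  obtain ⟨e, g, he, hg, hne, hM⟩ := step1 m n f hn hmn hf h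
  obtain ⟨s₁, a, δ, b, ha, hb, hs₁, hma, hmb, hδ⟩ := step2 m n g hn hmn hg hM
  rcases hs₁ with rfl | rfl
  · -- s₁ = 1
    have hma' : m = a ^ 2 := by rw [hma]; ring
    have hab : a * b ∣ g := by
      have : (a * b) ^ 2 ∣ g ^ 2 := by
        rw [← hM, hmb, hma']
        exact ⟨δ * (a ^ 2 - 81 * n), by ring⟩
      exact (Int.pow_dvd_pow_iff (by norm_num)).1 this
    obtain ⟨g1, rfl⟩ := hab
    have h2 : δ * (a ^ 2 - 81 * e ^ 2) = g1 ^ 2 := by
      have h3 : (a * b) ^ 2 * (δ * (a ^ 2 - 81 * e ^ 2)) = (a * b) ^ 2 * g1 ^ 2 := by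
        calc (a * b) ^ 2 * (δ * (a ^ 2 - 81 * e ^ 2))
            = a ^ 2 * (δ * b ^ 2) * (a ^ 2 - 81 * e ^ 2) := by ring
          _ = m * (m - n) * (m - 81 * n) := by rw [← hmb, ← hma', ← hne]
          _ = (a * b * g1) ^ 2 := hM
          _ = (a * b) ^ 2 * g1 ^ 2 := by ring
      exact mul_left_cancel₀ (pow_ne_zero 2 (mul_ne_zero ha hb)) h3
    have h1 : a ^ 2 - e ^ 2 = δ * b ^ 2 := by rw [← hmb, hma', hne]
    have hae : IsCoprime a e := by
      rw [hma', hne] at hmn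
      exact (IsCoprime.pow_iff (by norm_num) (by norm_num)).1 hmn
    refine ⟨a, e, b, δ, ha, he, hb, hma', hne, hmb, ?_⟩
    rcases hδ with rfl | rfl | rfl | rfl | rfl | rfl | rfl | rfl
    · left; rfl
    · exact (two_excl a e b g1 1 (by decide) hae (by rw [h1]; ring) (by rw [← h2]; ring)).elim
    · right; right; left; rfl
    · exact (two_excl a e b g1 5 (by decide) hae (by rw [h1]; ring) (by rw [← h2]; ring)).elim
    · right; left; rfl
    · exact (two_excl a e b g1 (-1) (by decide) hae (by rw [h1]; ring) (by rw [← h2]; ring)).elim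
    · right; right; right; rfl
    · exact (two_excl a e b g1 (-5) (by decide) hae (by rw [h1]; ring) (by rw [← h2]; ring)).elim
  · -- s₁ = 3
    exfalso
    have hab : 3 * a * b ∣ g := by
      have : (3 * a * b) ^ 2 ∣ g ^ 2 := by
        rw [← hM, hmb, hma, hne]
        exact ⟨δ * (a ^ 2 - 27 * e ^ 2), by ring⟩
      exact (Int.pow_dvd_pow_iff (by norm_num)).1 this
    obtain ⟨g1, rfl⟩ := hab
    have h2 : δ * (a ^ 2 - 27 * e ^ 2) = g1 ^ 2 := by
      have h3 : (3 * a * b) ^ 2 * (δ * (a ^ 2 - 27 * e ^ 2)) = (3 * a * b) ^ 2 * g1 ^ 2 := by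
        calc (3 * a * b) ^ 2 * (δ * (a ^ 2 - 27 * e ^ 2))
            = (3 * a ^ 2) * (δ * b ^ 2) * (3 * a ^ 2 - 81 * e ^ 2) := by ring
          _ = m * (m - n) * (m - 81 * n) := by rw [← hmb, ← hma, ← hne]
          _ = (3 * a * b * g1) ^ 2 := hM
          _ = (3 * a * b) ^ 2 * g1 ^ 2 := by ring
      exact mul_left_cancel₀ (pow_ne_zero 2 (mul_ne_zero (mul_ne_zero (by norm_num) ha) hb)) h3
    have h1 : 3 * a ^ 2 - e ^ 2 = δ * b ^ 2 := by rw [← hmb, hma, hne]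
    have h3e : ¬ (3 : ℤ) ∣ e := by
      intro h3
      have h3n : ((3 : ℕ) : ℤ) ∣ n := by rw [hne]; exact Dvd.dvd.mul_right (by exact_mod_cast h3) _ |>.trans (by rw [sq])
      have h3m : ((3 : ℕ) : ℤ) ∣ m := by rw [hma]; exact Dvd.intro _ rfl
      exact not_dvd_both hmn Nat.prime_three h3m h3n
    exact three_excl a e b g1 δ h3e h1 h2

theorem rat_sq_int (q : ℚ) (z : ℤ) (h : q ^ 2 = z) : ∃ f : ℤ, q = f := by
  have h1 : (q ^ 2).den = 1 := by rw [h]; rfl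
  rw [Rat.den_pow] at h1
  have h2 : q.den = 1 := by
    exact (Nat.pow_eq_one.1 h1).resolve_right (by norm_num)
  exact ⟨q.num, ((Rat.den_eq_one_iff q).1 h2).symm⟩

theorem classify (x y : ℚ) (hy : y ≠ 0) (h : y ^ 2 = x * (x - 1) * (x - 81)) :
    ∃ r k δ : ℚ, r ≠ 0 ∧ k ≠ 0 ∧ x = r ^ 2 ∧ x - 1 = δ * k ^ 2 ∧
      (δ = 1 ∨ δ = -1 ∨ δ = 5 ∨ δ = -5) := by
  set m : ℤ := x.num with hm
  set n : ℤ := (x.den : ℤ) with hn
  have hn0 : (n : ℚ) ≠ 0 := by
    rw [hn]; exact_mod_cast x.den_nz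
  have hnpos : 0 < n := by rw [hn]; exact_mod_cast x.den_pos
  have hx : x = (m : ℚ) / n := by
    rw [hm, hn]; exact_mod_cast (Rat.num_div_den x).symm
  have hcop : IsCoprime m n := by
    rw [hm, hn, Int.isCoprime_iff_gcd_eq_one]
    exact x.reduced
  have hsq : (y * n ^ 2) ^ 2 = ((n * (m * (m - n) * (m - 81 * n)) : ℤ) : ℚ) := by
    push_cast
    rw [mul_pow, h, hx]
    field_simp
  obtain ⟨f, hf⟩ := rat_sq_int _ _ hsq
  have hf0 : f ≠ 0 := by
    rintro rfl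
    have : y * (n : ℚ) ^ 2 = 0 := by rw [hf]; simp
    rcases mul_eq_zero.1 this with h1 | h1
    · exact hy h1
    · exact hn0 (pow_eq_zero_iff (by norm_num) |>.1 h1)
  have hint : n * (m * (m - n) * (m - 81 * n)) = f ^ 2 := by
    have : ((n * (m * (m - n) * (m - 81 * n)) : ℤ) : ℚ) = ((f ^ 2 : ℤ) : ℚ) := by
      rw [← hsq, hf]; push_cast; ring
    exact_mod_cast this
  obtain ⟨a, e, b, δ, ha, he, hb, hma, hne, hmb, hδ⟩ := classify_int m n f hnpos hcop hf0 hint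
  have he' : (e : ℚ) ≠ 0 := by exact_mod_cast he
  have ha' : (a : ℚ) ≠ 0 := by exact_mod_cast ha
  have hb' : (b : ℚ) ≠ 0 := by exact_mod_cast hb
  refine ⟨a / e, b / e, δ, div_ne_zero ha' he', div_ne_zero hb' he', ?_, ?_, ?_⟩
  · rw [hx, hma, hne]; push_cast; rw [div_pow]
  · have h1 : x - 1 = ((m - n : ℤ) : ℚ) / n := by
      rw [hx]; push_cast; field_simp
    rw [h1, hmb, hne]; push_cast; rw [div_pow]; ring
  · rcases hδ with rfl | rfl | rfl | rfl <;> simp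

theorem height_lemma (r1 r2 r3 : ℚ) (h12 : r1 ^ 2 - r2 ^ 2 = 1) (h13 : r1 ^ 2 - r3 ^ 2 = 81) :
    ((r1 + r2) * (r1 + r3)).num.natAbs < (r1 ^ 2).num.natAbs := by
  set a : ℤ := r1.num with ha
  set e : ℤ := (r1.den : ℤ) with he
  have he0 : (e : ℚ) ≠ 0 := by rw [he]; exact_mod_cast r1.den_nz
  have he0' : e ≠ 0 := by exact_mod_cast he0
  have hr1 : r1 = (a : ℚ) / e := by
    rw [ha, he]; exact_mod_cast (Rat.num_div_den r1).symm
  have hq2 : (r2 * e) ^ 2 = ((a ^ 2 - e ^ 2 : ℤ) : ℚ) := by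
    have : r2 ^ 2 = r1 ^ 2 - 1 := by linarith
    push_cast
    rw [mul_pow, this, hr1]; field_simp
  have hq3 : (r3 * e) ^ 2 = ((a ^ 2 - 81 * e ^ 2 : ℤ) : ℚ) := by
    have : r3 ^ 2 = r1 ^ 2 - 81 := by linarith
    push_cast
    rw [mul_pow, this, hr1]; field_simp
  obtain ⟨b, hb⟩ := rat_sq_int _ _ hq2
  obtain ⟨c, hc⟩ := rat_sq_int _ _ hq3
  have hb2 : b ^ 2 = a ^ 2 - e ^ 2 := by
    have : ((b ^ 2 : ℤ) : ℚ) = ((a ^ 2 - e ^ 2 : ℤ) : ℚ) := by rw [← hq2, hb]; push_cast; ring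
    exact_mod_cast this
  have hc2 : c ^ 2 = a ^ 2 - 81 * e ^ 2 := by
    have : ((c ^ 2 : ℤ) : ℚ) = ((a ^ 2 - 81 * e ^ 2 : ℤ) : ℚ) := by rw [← hq3, hc]; push_cast; ring
    exact_mod_cast this
  have hr2 : r2 = (b : ℚ) / e := by rw [← hb]; field_simp
  have hr3 : r3 = (c : ℚ) / e := by rw [← hc]; field_simp
  have hepos : 0 < e ^ 2 := by positivity
  have hab : a - b ≠ 0 := by
    intro h
    have : (a - b) * (a + b) = e ^ 2 := by ring_nf; linarith
    rw [h] at this; simp at this; exact he0' (pow_eq_zero_iff (by norm_num) |>.1 this.symm)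
  have hac : a + c ≠ 0 := by
    intro h
    have : (a + c) * (a - c) = 81 * e ^ 2 := by ring_nf; linarith
    rw [h] at this; simp at this; exact he0' this
  have hab' : ((a - b : ℤ) : ℚ) ≠ 0 := by exact_mod_cast hab
  have hxi : (r1 + r2) * (r1 + r3) = ((a + c : ℤ) : ℚ) / ((a - b : ℤ) : ℚ) := by
    rw [eq_div_iff hab']
    have h1 : (r1 + r2) * (r1 - r2) = 1 := by ring_nf; linarith
    have h2 : ((a - b : ℤ) : ℚ) = (r1 - r2) * e := by
      rw [hr1, hr2]; push_cast; field_simp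
    have h3 : ((a + c : ℤ) : ℚ) = (r1 + r3) * e := by
      rw [hr1, hr3]; push_cast; field_simp
    rw [h2, h3]
    calc (r1 + r2) * (r1 + r3) * ((r1 - r2) * e) = ((r1 + r2) * (r1 - r2)) * ((r1 + r3) * e) := by ring
      _ = (r1 + r3) * e := by rw [h1, one_mul]
  have hdvd : ((r1 + r2) * (r1 + r3)).num ∣ a + c := by
    rw [hxi, ← Rat.divInt_eq_div]
    exact Rat.num_dvd _ hab
  have hle : ((r1 + r2) * (r1 + r3)).num.natAbs ≤ (a + c).natAbs :=
    Nat.le_of_dvd (Int.natAbs_pos.2 hac) (Int.natAbs_dvd_natAbs.2 hdvd)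
  have hnum : (r1 ^ 2).num.natAbs = a.natAbs ^ 2 := by
    rw [Rat.num_pow, Int.natAbs_pow]
  rw [hnum]
  refine lt_of_le_of_lt hle ?_
  have hca : |c| < |a| := by
    apply sq_lt_sq.1
    nlinarith
  have ha9 : 2 ≤ |a| := by
    by_contra hlt
    push Not at hlt
    have : a ^ 2 < 2 ^ 2 := by
      apply sq_lt_sq.2
      simpa using hlt
    have h81 : 81 ≤ a ^ 2 := by nlinarith [sq_nonneg c]
    linarith
  have h1 : ((a + c).natAbs : ℤ) < ((a.natAbs ^ 2 : ℕ) : ℤ) := by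
    push_cast
    calc |a + c| ≤ |a| + |c| := abs_add_le a c
      _ < |a| + |a| := by linarith
      _ = 2 * |a| := by ring
      _ ≤ |a| * |a| := by nlinarith
      _ = |a| ^ 2 := by ring
  exact_mod_cast h1


/-- `x`, `x - 1`, `x - 81` are all rational squares. -/
def AllSq (x : ℚ) : Prop := ∃ r1 r2 r3 : ℚ, x = r1 ^ 2 ∧ x - 1 = r2 ^ 2 ∧ x - 81 = r3 ^ 2

theorem allSq_of_sub_one_sq (r1 r2 r3 k : ℚ) (h12 : r1 ^ 2 - r2 ^ 2 = 1)
    (h13 : r1 ^ 2 - r3 ^ 2 = 81) (hk : (r1 + r2) * (r1 + r3) - 1 = k ^ 2) :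
    AllSq ((r1 + r2) * (r1 + r3)) := by
  have n12 : r1 + r2 ≠ 0 := by
    intro h
    have : (r1 + r2) * (r1 - r2) = 1 := by ring_nf; linarith
    rw [h] at this; simp at this
  have n13 : r1 + r3 ≠ 0 := by
    intro h
    have : (r1 + r3) * (r1 - r3) = 81 := by ring_nf; linarith
    rw [h] at this; simp at this
  have n23 : r2 + r3 ≠ 0 := by
    intro h
    have : (r2 + r3) * (r2 - r3) = 80 := by ring_nf; linarith
    rw [h] at this; simp at this
  have e1 : (r1 + r2) * (r1 + r3) - 1 = (r1 + r2) * (r2 + r3) := by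
    have : (1 : ℚ) = r1 ^ 2 - r2 ^ 2 := h12.symm
    rw [this]; ring
  have e81 : (r1 + r2) * (r1 + r3) - 81 = (r1 + r3) * (r2 + r3) := by
    have : (81 : ℚ) = r1 ^ 2 - r3 ^ 2 := h13.symm
    rw [this]; ring
  have hy0 : (r1 + r2) * (r1 + r3) * (r2 + r3) ≠ 0 := mul_ne_zero (mul_ne_zero n12 n13) n23
  have hy : ((r1 + r2) * (r1 + r3) * (r2 + r3)) ^ 2 =
      ((r1 + r2) * (r1 + r3)) * ((r1 + r2) * (r1 + r3) - 1) * ((r1 + r2) * (r1 + r3) - 81) := by
    rw [e1, e81]; ring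
  obtain ⟨r, _, _, hr0, _, hr, _, _⟩ := classify _ _ hy0 hy
  have hk0 : k ≠ 0 := by
    rintro rfl
    rw [e1] at hk
    simp at hk
    rcases hk with h | h
    · exact n12 h
    · exact n23 h
  refine ⟨r, k, (r1 + r2) * (r1 + r3) * (r2 + r3) / (r * k), hr, hk, ?_⟩
  rw [div_pow, hy, hk, mul_pow, ← hr]
  have hx0 : (r1 + r2) * (r1 + r3) ≠ 0 := mul_ne_zero n12 n13
  field_simp

theorem descent_step (x : ℚ) (hx : AllSq x) : ∃ x' : ℚ, AllSq x' ∧ x'.num.natAbs < x.num.natAbs := by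
  obtain ⟨r1, r2, r3, h1, h2, h3⟩ := hx
  have h12 : r1 ^ 2 - r2 ^ 2 = 1 := by rw [← h1, ← h2]; ring
  have h13 : r1 ^ 2 - r3 ^ 2 = 81 := by rw [← h1, ← h3]; ring
  have n12 : r1 + r2 ≠ 0 := by
    intro h
    have : (r1 + r2) * (r1 - r2) = 1 := by ring_nf; linarith
    rw [h] at this; simp at this
  have n13 : r1 + r3 ≠ 0 := by
    intro h
    have : (r1 + r3) * (r1 - r3) = 81 := by ring_nf; linarith
    rw [h] at this; simp at this
  have n23 : r2 + r3 ≠ 0 := by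
    intro h
    have : (r2 + r3) * (r2 - r3) = 80 := by ring_nf; linarith
    rw [h] at this; simp at this
  have e1 : (r1 + r2) * (r1 + r3) - 1 = (r1 + r2) * (r2 + r3) := by
    have : (1 : ℚ) = r1 ^ 2 - r2 ^ 2 := h12.symm
    rw [this]; ring
  have e81 : (r1 + r2) * (r1 + r3) - 81 = (r1 + r3) * (r2 + r3) := by
    have : (81 : ℚ) = r1 ^ 2 - r3 ^ 2 := h13.symm
    rw [this]; ring
  have hy0 : (r1 + r2) * (r1 + r3) * (r2 + r3) ≠ 0 := mul_ne_zero (mul_ne_zero n12 n13) n23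
  have hy : ((r1 + r2) * (r1 + r3) * (r2 + r3)) ^ 2 =
      ((r1 + r2) * (r1 + r3)) * ((r1 + r2) * (r1 + r3) - 1) * ((r1 + r2) * (r1 + r3) - 81) := by
    rw [e1, e81]; ring
  obtain ⟨_, k, δ, _, hk0, _, hk, hδ⟩ := classify _ _ hy0 hy
  rw [e1] at hk
  have u12 : (r1 + r2) * (r1 - r2) = 1 := by ring_nf; linarith
  have u23 : (r2 + r3) * (r2 - r3) = 80 := by ring_nf; linarith
  have h12' : r1 ^ 2 - (-r2) ^ 2 = 1 := by rw [neg_sq]; exact h12
  have h13' : r1 ^ 2 - (-r3) ^ 2 = 81 := by rw [neg_sq]; exact h13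
  rw [h1]
  rcases hδ with rfl | rfl | rfl | rfl
  · -- δ = 1
    refine ⟨(r1 + r2) * (r1 + r3), allSq_of_sub_one_sq r1 r2 r3 k h12 h13 ?_,
      height_lemma r1 r2 r3 h12 h13⟩
    rw [e1, hk]; ring
  · -- δ = -1 : signs (-,-)
    refine ⟨(r1 + -r2) * (r1 + -r3), allSq_of_sub_one_sq r1 (-r2) (-r3) (k / (r1 + r2)) h12' h13' ?_,
      height_lemma r1 (-r2) (-r3) h12' h13'⟩
    have : (r1 + -r2) * (r1 + -r3) - 1 = -((r1 - r2) * (r2 + r3)) := by
      have : (1 : ℚ) = r1 ^ 2 - r2 ^ 2 := h12.symm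
      rw [this]; ring
    rw [this, div_pow, eq_div_iff (pow_ne_zero 2 n12)]
    calc -((r1 - r2) * (r2 + r3)) * (r1 + r2) ^ 2
        = -(((r1 + r2) * (r1 - r2)) * ((r1 + r2) * (r2 + r3))) := by ring
      _ = k ^ 2 := by rw [u12, hk]; ring
  · -- δ = 5 : signs (+,-)
    refine ⟨(r1 + r2) * (r1 + -r3), allSq_of_sub_one_sq r1 r2 (-r3) (20 * k / (r2 + r3)) h12 h13' ?_,
      height_lemma r1 r2 (-r3) h12 h13'⟩
    have : (r1 + r2) * (r1 + -r3) - 1 = (r1 + r2) * (r2 - r3) := by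
      have : (1 : ℚ) = r1 ^ 2 - r2 ^ 2 := h12.symm
      rw [this]; ring
    rw [this, div_pow, eq_div_iff (pow_ne_zero 2 n23)]
    calc (r1 + r2) * (r2 - r3) * (r2 + r3) ^ 2
        = ((r2 + r3) * (r2 - r3)) * ((r1 + r2) * (r2 + r3)) := by ring
      _ = (20 * k) ^ 2 := by rw [u23, hk]; ring
  · -- δ = -5 : signs (-,+)
    refine ⟨(r1 + -r2) * (r1 + r3), allSq_of_sub_one_sq r1 (-r2) r3 (4 / k) h12' h13 ?_,
      height_lemma r1 (-r2) r3 h12' h13⟩
    have : (r1 + -r2) * (r1 + r3) - 1 = -((r1 - r2) * (r2 - r3)) := by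
      have : (1 : ℚ) = r1 ^ 2 - r2 ^ 2 := h12.symm
      rw [this]; ring
    rw [this, div_pow, eq_div_iff (pow_ne_zero 2 hk0)]
    have h5 : -5 * (-((r1 - r2) * (r2 - r3)) * k ^ 2) = -5 * 4 ^ 2 := by
      calc -5 * (-((r1 - r2) * (r2 - r3)) * k ^ 2)
          = -((r1 - r2) * (r2 - r3)) * (-5 * k ^ 2) := by ring
        _ = -((r1 - r2) * (r2 - r3)) * ((r1 + r2) * (r2 + r3)) := by rw [hk]
        _ = -(((r1 + r2) * (r1 - r2)) * ((r2 + r3) * (r2 - r3))) := by ring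
        _ = -5 * 4 ^ 2 := by rw [u12, u23]; norm_num
    linarith

theorem not_allSq (x : ℚ) : ¬ AllSq x := by
  have key : ∀ N : ℕ, ∀ x : ℚ, x.num.natAbs = N → ¬ AllSq x := by
    intro N
    induction N using Nat.strong_induction_on with
    | _ N ih =>
      intro x hxN hx
      obtain ⟨x', hx', hlt⟩ := descent_step x hx
      exact ih x'.num.natAbs (hxN ▸ hlt) x' rfl hx'
  exact key _ x rfl

/-- The elliptic curve `y ^ 2 = x (x - 1) (x - 81)` (Cremona `15a2`) has no rational points besides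
the `2`-torsion points. -/
theorem no_point_15a2 (x y : ℚ) (h : y ^ 2 = x * (x - 1) * (x - 81)) : y = 0 := by
  by_contra hy
  obtain ⟨r, k, δ, hr0, hk0, hr, hk, hδ⟩ := classify x y hy h
  have hδ0 : δ ≠ 0 := by rcases hδ with rfl | rfl | rfl | rfl <;> norm_num
  -- x - 81 = δ * l ^ 2
  obtain ⟨l, hl0, hl⟩ : ∃ l : ℚ, l ≠ 0 ∧ x - 81 = δ * l ^ 2 := by
    refine ⟨y / (r * k * δ), div_ne_zero hy (mul_ne_zero (mul_ne_zero hr0 hk0) hδ0), ?_⟩
    rw [div_pow, h, hk, hr]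
    field_simp
  rcases hδ with rfl | rfl | rfl | rfl
  · exact not_allSq x ⟨r, k, l, hr, by rw [hk]; ring, by rw [hl]; ring⟩
  · refine not_allSq (81 / x) ⟨9 / r, l / r, 9 * k / r, ?_, ?_, ?_⟩
    · rw [hr]; field_simp; norm_num
    · have : x = 81 - l ^ 2 := by linarith
      rw [div_pow, ← hr]
      have hx0 : x ≠ 0 := by rw [hr]; exact pow_ne_zero 2 hr0
      field_simp
      linarith
    · have : x = 1 - k ^ 2 := by linarith
      rw [div_pow, ← hr]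
      have hx0 : x ≠ 0 := by rw [hr]; exact pow_ne_zero 2 hr0
      field_simp
      linarith
  · have hx81 : x - 81 ≠ 0 := by rw [hl]; exact mul_ne_zero (by norm_num) (pow_ne_zero 2 hl0)
    refine not_allSq (81 * (x - 1) / (x - 81)) ⟨9 * k / l, 4 * r / l, 36 / l, ?_, ?_, ?_⟩
    · rw [hk, hl]; field_simp; norm_num
    · have e : 81 * (x - 1) / (x - 81) - 1 = 80 * x / (x - 81) := by field_simp; ring
      rw [e, hl, hr]; field_simp; norm_num
    · have e : 81 * (x - 1) / (x - 81) - 81 = 81 * 80 / (x - 81) := by field_simp; ring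
      rw [e, hl]; field_simp; norm_num
  · have hx1 : x - 1 ≠ 0 := by rw [hk]; exact mul_ne_zero (by norm_num) (pow_ne_zero 2 hk0)
    refine not_allSq ((x - 81) / (x - 1)) ⟨l / k, 4 / k, 4 * r / k, ?_, ?_, ?_⟩
    · rw [hk, hl]; field_simp
    · have e : (x - 81) / (x - 1) - 1 = -80 / (x - 1) := by field_simp; ring
      rw [e, hk]; field_simp; norm_num
    · have e : (x - 81) / (x - 1) - 81 = -80 * x / (x - 1) := by field_simp; ring
      rw [e, hk, hr]; field_simp; norm_num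

end Fermat.Agent.S51
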