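import Fermat.Statements.S51
import Fermat.Agent.S51.Descent

/-! S51, Parts B and D: the explicit model of `X₀(15)` and the final contradiction. -/

set_option autoImplicit false

namespace Fermat.Agent.S51

/-- Rational points of `Y² = X (X - 9) (X - 25)` (the curve `X₀(15)`), by pulling back along the
2-isogeny to `y² = x (x - 1) (x - 81)`. -/
theorem X0_15_points (X Y : ℚ) (h : Y ^ 2 = X * (X - 9) * (X - 25)) :
    X = 0 ∨ X = 5 ∨ X = 9 ∨ X = 25 ∨ X = 45 := by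
  by_cases h25 : X = 25
  · simp [h25]
  have h25' : X - 25 ≠ 0 := sub_ne_zero.mpr h25
  have key := no_point_15a2 (X * (X - 9) / (X - 25)) (Y * (X - 5) * (X - 45) / (X - 25) ^ 2) (by
    field_simp
    linear_combination (X - 5) ^ 2 * (X - 45) ^ 2 * h)
  have : Y * (X - 5) * (X - 45) = 0 := by
    rcases div_eq_zero_iff.mp key with h1 | h1
    · exact h1
    · exact absurd h1 (pow_ne_zero 2 h25')
  rcases mul_eq_zero.mp this with h1 | h1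
  · rcases mul_eq_zero.mp h1 with h2 | h2
    · rw [h2] at h
      have : X * (X - 9) * (X - 25) = 0 := by linear_combination -h
      rcases mul_eq_zero.mp this with h3 | h3
      · rcases mul_eq_zero.mp h3 with h4 | h4
        · simp [h4]
        · right; right; left; linarith
      · exact absurd h3 h25'
    · right; left; linarith
  · right; right; right; right; linarith

theorem relM (b2 b4 b6 b8 s v : ℚ) (hb : 4*b8 = b2*b6 - b4^2)
    (h1 : s^3 - 6*s*v - b2*v - b4*s - b6 = 0)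
    (h2 : s^4 - 8*s^2*v + 10*v^2 - b2*s*v - b4*s^2 - 2*b4*v - 3*b6*s - 2*b8 = 0) :
    4*(-(b2^2 - 24*b4)/48 + (s + b2/6)^2 - (v + b2*s/12 + b2^2/144))^2 + (s^2-4*v)^2
      = 9*(s + b2/6)^2*(s^2-4*v) := by
  linear_combination 2*h2 - 6*(s+b2/6)*h1 + hb

theorem relL (b2 b4 b6 b8 x s v : ℚ)
    (hx : 3*x^4 + b2*x^3 + 3*b4*x^2 + 3*b6*x + b8 = 0)
    (h1 : s^3 - 6*s*v - b2*v - b4*s - b6 = 0)
    (h2 : s^4 - 8*s^2*v + 10*v^2 - b2*s*v - b4*s^2 - 2*b4*v - 3*b6*s - 2*b8 = 0) :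
    12*(s + b2/6)*(2*x-s)*((2*x-s)^2+3*(s^2-4*v)) + 3*((2*x-s)^2-(s^2-4*v))^2
      + 8*(-(b2^2 - 24*b4)/48 + (s + b2/6)^2 - (v + b2*s/12 + b2^2/144))
        *(3*(2*x-s)^2+(s^2-4*v)) = 0 := by
  linear_combination 16*hx + 24*(2*x-s)*h1 + 8*h2

theorem relDelta (b2 b4 b6 b8 s v : ℚ) (hb : 4*b8 = b2*b6 - b4^2)
    (h1 : s^3 - 6*s*v - b2*v - b4*s - b6 = 0)
    (h2 : s^4 - 8*s^2*v + 10*v^2 - b2*s*v - b4*s^2 - 2*b4*v - 3*b6*s - 2*b8 = 0) :
    -b2^2*b8 - 8*b4^3 - 27*b6^2 + 9*b2*b4*b6 =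
      (4*(-(b2^2 - 24*b4)/48 + (s + b2/6)^2 - (v + b2*s/12 + b2^2/144)) - 11*(s^2-4*v))
        *(s^2-4*v)^2 := by
  linear_combination (-64*(-(b2^2 - 24*b4)/48) + 20*(s + b2/6)^2
      - 128*(v + b2*s/12 + b2^2/144)) * (2*h2 - 6*(s+b2/6)*h1 + hb)/4
    + 27*(2*((s + b2/6)^3 - 6*(s + b2/6)*(v + b2*s/12 + b2^2/144)
      - 2*(-(b2^2 - 24*b4)/48)*(s + b2/6)) - (s^3 - 6*s*v - b2*v - b4*s - b6))*h1 - b2^2/4*hb

theorem relC4 (b2 b4 s v : ℚ) :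
    (b2^2 - 24*b4) = -48*(-(b2^2 - 24*b4)/48 + (s + b2/6)^2 - (v + b2*s/12 + b2^2/144))
      + 36*(s + b2/6)^2 + 12*(s^2-4*v) := by
  ring

/-- The heart of Part B: the point on `X₀(15)` and the possible values of the Hauptmodul
`κ = a / δ` of `X₀(5)`. -/
theorem kappa_values (δ u a st : ℚ) (hδ : δ ≠ 0)
    (hM : 4*a^2 + δ^2 = 9*st^2*δ)
    (hL : 12*st*u*(u^2+3*δ) + 3*(u^2-δ)^2 + 8*a*(3*u^2+δ) = 0) :
    4*a = 11*δ ∨ 4*a = δ ∨ 8*a = -3*δ ∨ 32*a = 63*δ ∨ 4*a = -29*δ := by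
  have hδpos : 0 < δ := by
    by_contra hneg
    have hle : δ ≤ 0 := not_lt.mp hneg
    have h1 : 0 < δ^2 := by positivity
    nlinarith [sq_nonneg a, sq_nonneg st, mul_nonneg (sq_nonneg st) (neg_nonneg.mpr hle)]
  have hN : 16*(4*a^2+δ^2)*u^2*(u^2+3*δ)^2 = δ*(3*(u^2-δ)^2 + 8*a*(3*u^2+δ))^2 := by
    have h3 : 3*(u^2-δ)^2 + 8*a*(3*u^2+δ) = -(12*st*u*(u^2+3*δ)) := by linear_combination hL
    rw [h3, hM]; ring
  set X : ℚ := 9*u^2/δ with hX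
  set κ : ℚ := a/δ with hκ
  have hX27 : X + 27 ≠ 0 := by
    have : 0 ≤ X := by rw [hX]; positivity
    linarith
  have hK : 64*(X-9)^3*κ^2 - 144*(X+3)*(X-9)^2*κ
      - (X^4 - 52*X^3 - 378*X^2 - 14580*X + 6561) = 0 := by
    rw [hX, hκ]
    field_simp
    linear_combination 729 * hN
  have hY : ((X-9)*(8*(X-9)*κ - 9*(X+3))/(X+27))^2 = X*(X-9)*(X-25) := by
    field_simp
    linear_combination (X-9) * hK
  have ha : a = κ * δ := by rw [hκ]; field_simp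
  rcases X0_15_points X _ hY with h | h | h | h | h
  · -- X = 0
    rw [h] at hK
    have : (8*κ+3)^2 = 0 := by linear_combination (-1/729) * hK
    have : 8*κ+3 = 0 := by simpa using this
    right; right; left
    rw [ha]; linear_combination δ * this
  · -- X = 5
    rw [h] at hK
    have : (4*κ-11)*(4*κ+29) = 0 := by linear_combination (-1/256) * hK
    rcases mul_eq_zero.mp this with h' | h'
    · left; rw [ha]; linear_combination δ * h'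
    · right; right; right; right; rw [ha]; linear_combination δ * h'
  · -- X = 9
    rw [h] at hK
    norm_num at hK
  · -- X = 25
    rw [h] at hK
    have : (32*κ-63)^2 = 0 := by linear_combination (1/256) * hK
    have : 32*κ-63 = 0 := by simpa using this
    right; right; right; left
    rw [ha]; linear_combination δ * this
  · -- X = 45
    rw [h] at hK
    have : (4*κ-11)*(4*κ-1) = 0 := by linear_combination (1/186624) * hK
    rcases mul_eq_zero.mp this with h' | h'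
    · left; rw [ha]; linear_combination δ * h'
    · right; left; rw [ha]; linear_combination δ * h'


theorem five_dvd_aux (c D m n : ℤ) (hm : ¬ (5:ℤ) ∣ m) (hn : ¬ (5:ℤ) ∣ n)
    (h : 5*m*D = n*c^3 ∨ 25*m*D = n*c^3) : (5:ℤ) ∣ c ∧ (5:ℤ) ∣ D := by
  have p5 : Prime (5:ℤ) := by norm_num
  have hc : (5:ℤ) ∣ c := by
    have h5 : (5:ℤ) ∣ n * c^3 := by
      rcases h with h | h
      · exact ⟨m*D, by rw [← h]; ring⟩
      · exact ⟨5*m*D, by rw [← h]; ring⟩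
    rcases p5.dvd_or_dvd h5 with h' | h'
    · exact absurd h' hn
    · exact p5.dvd_of_dvd_pow h'
  refine ⟨hc, ?_⟩
  obtain ⟨c', rfl⟩ := hc
  have h5 : (5:ℤ) ∣ m * D := by
    rcases h with h | h
    · exact ⟨5*n*c'^3, by linarith⟩
    · exact ⟨n*c'^3, by linarith⟩
  rcases p5.dvd_or_dvd h5 with h' | h'
  · exact absurd h' hm
  · exact h'

/-- Parts B and D together. -/
theorem arithmetic (W : WeierstrassCurve ℤ) (hΔ : W.Δ ≠ 0) (hW : W.IsSemistableModel)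
    (x s v : ℚ) (hx : 3*x^4 + (W.b₂:ℚ)*x^3 + 3*(W.b₄:ℚ)*x^2 + 3*(W.b₆:ℚ)*x + (W.b₈:ℚ) = 0)
    (hsv : s^2 - 4*v ≠ 0) (h1 : s^3 - 6*s*v - (W.b₂:ℚ)*v - (W.b₄:ℚ)*s - (W.b₆:ℚ) = 0)
    (h2 : s^4 - 8*s^2*v + 10*v^2 - (W.b₂:ℚ)*s*v - (W.b₄:ℚ)*s^2 - 2*(W.b₄:ℚ)*v - 3*(W.b₆:ℚ)*s
      - 2*(W.b₈:ℚ) = 0) : False := by
  have hb : 4*(W.b₈:ℚ) = (W.b₂:ℚ)*(W.b₆:ℚ) - (W.b₄:ℚ)^2 := by
    exact_mod_cast W.b_relation
  have hM := relM _ _ _ _ s v hb h1 h2
  have hL := relL _ _ _ _ x s v hx h1 h2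
  have hD := relDelta _ _ _ _ s v hb h1 h2
  have hC := relC4 (W.b₂:ℚ) (W.b₄:ℚ) s v
  have hDcast : (W.Δ : ℚ) = -(W.b₂:ℚ)^2*(W.b₈:ℚ) - 8*(W.b₄:ℚ)^3 - 27*(W.b₆:ℚ)^2
      + 9*(W.b₂:ℚ)*(W.b₄:ℚ)*(W.b₆:ℚ) := by
    rw [WeierstrassCurve.Δ]; push_cast; ring
  have hCcast : (W.c₄ : ℚ) = (W.b₂:ℚ)^2 - 24*(W.b₄:ℚ) := by
    rw [WeierstrassCurve.c₄]; push_cast; ring
  rw [← hDcast] at hD
  generalize -((W.b₂:ℚ)^2 - 24*(W.b₄:ℚ))/48 + (s + (W.b₂:ℚ)/6)^2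
    - (v + (W.b₂:ℚ)*s/12 + (W.b₂:ℚ)^2/144) = a at hM hL hD hC
  rw [← hCcast] at hC
  generalize s + (W.b₂:ℚ)/6 = st at hM hL hC
  generalize s^2 - 4*v = δ at hsv hM hL hD hC
  have hCδ : (W.c₄ : ℚ) * δ = 16*(a^2 - 3*a*δ + δ^2) := by
    rw [hC]; linear_combination (-4) * hM
  have fin : ∀ m n : ℤ, ¬ (5:ℤ) ∣ m → ¬ (5:ℤ) ∣ n →
      (5*m*W.Δ = n*W.c₄^3 ∨ 25*m*W.Δ = n*W.c₄^3) → False := by
    intro m n hm hn h
    obtain ⟨h5c, h5D⟩ := five_dvd_aux _ _ m n hm hn h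
    exact hW 5 Nat.prime_five (by exact_mod_cast h5D) (by exact_mod_cast h5c)
  rcases kappa_values δ (2*x-s) a st hsv hM hL with h | h | h | h | h
  · -- cusp: Δ = 0
    apply hΔ
    have : (W.Δ : ℚ) = 0 := by rw [hD, h]; ring
    exact_mod_cast this
  · -- t = -10
    have ha : a = δ/4 := by linarith
    have hc : (W.c₄ : ℚ) = 5*δ := by
      have : (W.c₄ : ℚ) * δ = 5*δ*δ := by rw [hCδ, ha]; ring
      exact mul_right_cancel₀ hsv this
    refine fin 1 (-2) (by norm_num) (by norm_num) (Or.inr ?_)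
    have : (25*1*W.Δ : ℚ) = (-2)*(W.c₄:ℚ)^3 := by rw [hD, hc, ha]; ring
    exact_mod_cast this
  · -- t = -25/2
    have ha : a = -3*δ/8 := by linarith
    have hc : (W.c₄ : ℚ) = 145/4*δ := by
      have : (W.c₄ : ℚ) * δ = 145/4*δ*δ := by rw [hCδ, ha]; ring
      exact mul_right_cancel₀ hsv this
    refine fin 24389 (-32) (by norm_num) (by norm_num) (Or.inl ?_)
    have : (5*24389*W.Δ : ℚ) = (-32)*(W.c₄:ℚ)^3 := by rw [hD, hc, ha]; ring
    exact_mod_cast this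
  · -- t = -25/8
    have ha : a = 63*δ/32 := by linarith
    have hc : (W.c₄ : ℚ) = -1055/64*δ := by
      have : (W.c₄ : ℚ) * δ = -1055/64*δ*δ := by rw [hCδ, ha]; ring
      exact mul_right_cancel₀ hsv this
    refine fin 9393931 32768 (by norm_num) (by norm_num) (Or.inl ?_)
    have : (5*9393931*W.Δ : ℚ) = 32768*(W.c₄:ℚ)^3 := by rw [hD, hc, ha]; ring
    exact_mod_cast this
  · -- t = -40
    have ha : a = -29*δ/4 := by linarith
    have hc : (W.c₄ : ℚ) = 1205*δ := by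
      have : (W.c₄ : ℚ) * δ = 1205*δ*δ := by rw [hCδ, ha]; ring
      exact mul_right_cancel₀ hsv this
    refine fin 13997521 (-8) (by norm_num) (by norm_num) (Or.inr ?_)
    have : (25*13997521*W.Δ : ℚ) = (-8)*(W.c₄:ℚ)^3 := by rw [hD, hc, ha]; ring
    exact_mod_cast this

end Fermat.Agent.S51
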