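import Fermat.Statements.S51

/-! S51 piece Core2: Galois action, fixed field, counting, lines. -/

set_option autoImplicit false
open WeierstrassCurve WeierstrassCurve.Affine WeierstrassCurve.Affine.Point

namespace Fermat.Agent.S51

variable (E : WeierstrassCurve ℚ)
local notation "Kb" => AlgebraicClosure ℚ

theorem smul_some (σ : Kb ≃ₐ[ℚ] Kb) {x y : Kb} (h : (E⁄Kb).toAffine.Nonsingular x y) :
    ∃ h', σ • (Point.some x y h : (E⁄Kb).toAffine.Point) = Point.some (σ x) (σ y) h' := by
  exact ⟨_, rfl⟩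

theorem mem_rat_of_fixed (x : Kb) (h : ∀ σ : Kb ≃ₐ[ℚ] Kb, σ x = x) :
    ∃ q : ℚ, algebraMap ℚ Kb q = x := by
  have hac : IsAlgClosure ℚ Kb :=
    (inferInstance : @IsAlgClosure ℚ (AlgebraicClosure ℚ) _ _ (AlgebraicClosure.instAlgebra ℚ) _)
  have : IsGalois ℚ Kb := inferInstance
  exact (InfiniteGalois.mem_range_algebraMap_iff_fixed (k := ℚ) (K := Kb) x).2 h

namespace Core2

/-- a chosen point with given x-coordinate (or `0`) -/
noncomputable def lift (x : Kb) : (E⁄Kb).toAffine.Point :=
  open Classical in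
  if h : ∃ y, (E⁄Kb).toAffine.Nonsingular x y then Point.some x h.choose h.choose_spec else 0

theorem eq_lift_or (x y : Kb) (hxy : (E⁄Kb).toAffine.Nonsingular x y) :
    (Point.some x y hxy : (E⁄Kb).toAffine.Point) = lift E x ∨
      (Point.some x y hxy : (E⁄Kb).toAffine.Point) = - lift E x := by
  have h : ∃ y, (E⁄Kb).toAffine.Nonsingular x y := ⟨y, hxy⟩
  unfold lift
  rw [dif_pos h]
  exact Point.X_eq_iff.1 rfl

end Core2

/-- bound on the torsion from a polynomial killing all x-coordinates -/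
theorem card_torsion_le (n : ℕ) (G : Polynomial Kb) (hG : G ≠ 0)
    (h : ∀ (x y : Kb) (hxy : (E⁄Kb).toAffine.Nonsingular x y),
      (n : ℤ) • (Point.some x y hxy : (E⁄Kb).toAffine.Point) = 0 → G.eval x = 0) :
    Finite (Submodule.torsionBy ℤ (E⁄Kb).toAffine.Point n) ∧
    Nat.card (Submodule.torsionBy ℤ (E⁄Kb).toAffine.Point n) ≤ 2 * G.natDegree + 1 := by
  classical
  set S : Finset (E⁄Kb).toAffine.Point :=
    insert 0 (G.roots.toFinset.image (Core2.lift E) ∪
      G.roots.toFinset.image (fun x => - Core2.lift E x)) with hS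
  have hsub : ((Submodule.torsionBy ℤ (E⁄Kb).toAffine.Point n : Submodule ℤ _) :
      Set (E⁄Kb).toAffine.Point) ⊆ (S : Set (E⁄Kb).toAffine.Point) := by
    intro P hP
    have hP' : (n : ℤ) • P = 0 := (Submodule.mem_torsionBy_iff _ _).1 hP
    rcases P with _ | ⟨x, y, hxy⟩
    · simp [hS, Point.zero_def]
    · have hx : x ∈ G.roots.toFinset := by
        rw [Multiset.mem_toFinset, Polynomial.mem_roots hG]
        exact h x y hxy hP'
      rcases Core2.eq_lift_or E x y hxy with h1 | h1
      · rw [h1, hS]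
        simp only [Finset.coe_insert, Finset.coe_union, Finset.coe_image]
        exact Or.inr (Or.inl ⟨x, hx, rfl⟩)
      · rw [h1, hS]
        simp only [Finset.coe_insert, Finset.coe_union, Finset.coe_image]
        exact Or.inr (Or.inr ⟨x, hx, rfl⟩)
  have hfin : ((Submodule.torsionBy ℤ (E⁄Kb).toAffine.Point n : Submodule ℤ _) :
      Set (E⁄Kb).toAffine.Point).Finite := S.finite_toSet.subset hsub
  refine ⟨hfin.to_subtype, ?_⟩
  have h1 : Nat.card (Submodule.torsionBy ℤ (E⁄Kb).toAffine.Point n) ≤ S.card := by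
    have := Set.ncard_le_ncard hsub S.finite_toSet
    rw [Set.ncard_coe_finset] at this
    exact this
  have h2 : G.roots.toFinset.card ≤ G.natDegree :=
    (Multiset.toFinset_card_le _).trans (Polynomial.card_roots' G)
  have h3 : S.card ≤ 2 * G.natDegree + 1 := by
    calc S.card ≤ (G.roots.toFinset.image (Core2.lift E) ∪
        G.roots.toFinset.image (fun x => - Core2.lift E x)).card + 1 := Finset.card_insert_le _ _
      _ ≤ ((G.roots.toFinset.image (Core2.lift E)).card +
        (G.roots.toFinset.image (fun x => - Core2.lift E x)).card) + 1 :=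
          Nat.add_le_add_right (Finset.card_union_le _ _) 1
      _ ≤ (G.roots.toFinset.card + G.roots.toFinset.card) + 1 :=
          Nat.add_le_add_right (Nat.add_le_add Finset.card_image_le Finset.card_image_le) 1
      _ ≤ 2 * G.natDegree + 1 := by omega
  exact h1.trans h3

/-- a proper nonzero submodule of a small torsion module is a line -/
theorem exists_generator (p : ℕ) [Fact p.Prime]
    [Finite (Submodule.torsionBy ℤ (E⁄Kb).toAffine.Point p)]
    (hcard : Nat.card (Submodule.torsionBy ℤ (E⁄Kb).toAffine.Point p) < p ^ 3)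
    (N : Submodule (ZMod p) (Submodule.torsionBy ℤ (E⁄Kb).toAffine.Point p))
    (h0 : N ≠ ⊥) (h1 : N ≠ ⊤) :
    ∃ P ∈ N, P ≠ 0 ∧ ∀ Q ∈ N, ∃ k : ℕ, k < p ∧ Q = k • P := by
  have hp : 1 < p := (Fact.out : p.Prime).one_lt
  have : Module.Finite (ZMod p) (Submodule.torsionBy ℤ (E⁄Kb).toAffine.Point p) :=
    Module.Finite.of_finite
  have hc : Nat.card (Submodule.torsionBy ℤ (E⁄Kb).toAffine.Point p) =
      p ^ Module.finrank (ZMod p) (Submodule.torsionBy ℤ (E⁄Kb).toAffine.Point p) := by
    have := Module.natCard_eq_pow_finrank (K := ZMod p)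
      (V := Submodule.torsionBy ℤ (E⁄Kb).toAffine.Point p)
    rwa [Nat.card_zmod] at this
  have hr : Module.finrank (ZMod p) (Submodule.torsionBy ℤ (E⁄Kb).toAffine.Point p) < 3 := by
    rw [hc] at hcard
    exact (Nat.pow_lt_pow_iff_right hp).1 hcard
  have hN1 : Module.finrank (ZMod p) N <
      Module.finrank (ZMod p) (Submodule.torsionBy ℤ (E⁄Kb).toAffine.Point p) :=
    Submodule.finrank_lt h1
  have hN0 : 0 < Module.finrank (ZMod p) N := by
    rw [Module.finrank_pos_iff]
    exact (Submodule.nontrivial_iff_ne_bot).2 h0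
  have hN : Module.finrank (ZMod p) N = 1 := by omega
  obtain ⟨⟨P, hPN⟩, hP0, hP⟩ := finrank_eq_one_iff'.1 hN
  refine ⟨P, hPN, fun h => hP0 (Subtype.ext h), fun Q hQ => ?_⟩
  obtain ⟨c, hc⟩ := hP ⟨Q, hQ⟩
  refine ⟨c.val, ZMod.val_lt c, ?_⟩
  have hc' : c • P = Q := congrArg Subtype.val hc
  rw [← hc', ← Nat.cast_smul_eq_nsmul (ZMod p) c.val P, ZMod.natCast_zmod_val]

end Fermat.Agent.S51
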