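import Fermat.Agent.S51.Core1

/-! S51 piece Exist: existence of points of order 3 and 5 over an algebraically closed field. -/

set_option autoImplicit false
open WeierstrassCurve WeierstrassCurve.Affine WeierstrassCurve.Affine.Point

namespace Fermat.Agent.S51

variable {K : Type*} [Field K] [DecidableEq K] [IsAlgClosed K] [CharZero K]
  (W : WeierstrassCurve.Affine K)

namespace Exist

omit [IsAlgClosed K] [CharZero K] in
/-- `dblNum` and `dblDen` have no common zero. -/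
theorem not_both_zero (hΔ : W.Δ ≠ 0) {x : K} (h1 : dblNum W x = 0) (h2 : dblDen W x = 0) :
    False := by
  apply hΔ
  rw [← bezout W x, h1, h2]
  ring

omit [IsAlgClosed K] [CharZero K] in
/-- If `x₂ * dblDen x₁ = dblNum x₁` then the double of a point with abscissa `x₁` is a point with
abscissa `x₂`. -/
theorem dbl_eq (hΔ : W.Δ ≠ 0) {x₁ x₂ y₁ : K} (h : W.Nonsingular x₁ y₁)
    (hx : x₂ * dblDen W x₁ = dblNum W x₁) :
    ∃ (y₂ : K) (h₂ : W.Nonsingular x₂ y₂),
      Point.some x₁ y₁ h + Point.some x₁ y₁ h = Point.some x₂ y₂ h₂ := by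
  rcases dbl_some W h with ⟨-, h0⟩ | ⟨hne, x', y', h', hadd, hx'⟩
  · exact (not_both_zero W hΔ (by rw [← hx, h0, mul_zero]) h0).elim
  · have : x' = x₂ := mul_right_cancel₀ hne (hx'.trans hx.symm)
    subst this
    exact ⟨y', h', hadd⟩

omit [DecidableEq K] [CharZero K] in
/-- Every polynomial of positive degree has a root; convenient wrapper. -/
theorem exists_root_of_natDegree_pos (p : Polynomial K) (hp : 0 < p.natDegree) :
    ∃ x : K, p.eval x = 0 := by
  obtain ⟨x, hx⟩ := IsAlgClosed.exists_root p (by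
    intro h
    rw [Polynomial.degree_eq_natDegree (by rintro rfl; simp at hp)] at h
    have : p.natDegree = 0 := by exact_mod_cast h
    omega)
  exact ⟨x, hx⟩

open Polynomial in
/-- Solving the two resultant equations for `s = x₁ + x₂`, `v = x₁ x₂`. -/
theorem exists_sv_closed :
    ∃ s v : K, s ^ 3 - 6 * s * v - W.b₂ * v - W.b₄ * s - W.b₆ = 0 ∧
      s ^ 4 - 8 * s ^ 2 * v + 10 * v ^ 2 - W.b₂ * s * v - W.b₄ * s ^ 2 - 2 * W.b₄ * v
        - 3 * W.b₆ * s - 2 * W.b₈ = 0 := by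
  have h2 : (2 : K) ≠ 0 := by norm_num
  have h10 : (10 : K) ≠ 0 := by norm_num
  -- the polynomial `H`
  obtain ⟨s, hs⟩ := exists_root_of_natDegree_pos
    ((C 6 * X + C W.b₂) ^ 2 * (X ^ 4 - C W.b₄ * X ^ 2 - C (3 * W.b₆) * X - C (2 * W.b₈))
      + (C 6 * X + C W.b₂) * (X ^ 3 - C W.b₄ * X - C W.b₆)
          * (- C 8 * X ^ 2 - C W.b₂ * X - C (2 * W.b₄))
      + C 10 * (X ^ 3 - C W.b₄ * X - C W.b₆) ^ 2 : K[X]) (by
      have : ((C 6 * X + C W.b₂) ^ 2 * (X ^ 4 - C W.b₄ * X ^ 2 - C (3 * W.b₆) * X - C (2 * W.b₈))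
        + (C 6 * X + C W.b₂) * (X ^ 3 - C W.b₄ * X - C W.b₆)
          * (- C 8 * X ^ 2 - C W.b₂ * X - C (2 * W.b₄))
        + C 10 * (X ^ 3 - C W.b₄ * X - C W.b₆) ^ 2 : K[X]).natDegree = 6 := by
        compute_degree!
      omega)
  simp only [eval_add, eval_mul, eval_C, eval_pow, eval_X, eval_sub, eval_neg] at hs
  by_cases h6 : 6 * s + W.b₂ = 0
  · have hc : s ^ 3 - W.b₄ * s - W.b₆ = 0 := by
      rw [h6] at hs
      have : 10 * (s ^ 3 - W.b₄ * s - W.b₆) ^ 2 = 0 := by linear_combination hs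
      exact pow_eq_zero_iff (two_ne_zero) |>.mp ((mul_eq_zero.mp this).resolve_left h10)
    obtain ⟨v, hv⟩ := exists_root_of_natDegree_pos
      (C 10 * X ^ 2 + C (-8 * s ^ 2 - W.b₂ * s - 2 * W.b₄) * X
        + C (s ^ 4 - W.b₄ * s ^ 2 - 3 * W.b₆ * s - 2 * W.b₈) : K[X]) (by
        have : (C 10 * X ^ 2 + C (-8 * s ^ 2 - W.b₂ * s - 2 * W.b₄) * X
          + C (s ^ 4 - W.b₄ * s ^ 2 - 3 * W.b₆ * s - 2 * W.b₈) : K[X]).natDegree = 2 := by
          compute_degree!
        omega)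
    simp only [eval_add, eval_mul, eval_C, eval_pow, eval_X] at hv
    refine ⟨s, v, ?_, ?_⟩
    · linear_combination hc - v * h6
    · linear_combination hv
  · obtain ⟨v, hv⟩ : ∃ v : K, v * (6 * s + W.b₂) = s ^ 3 - W.b₄ * s - W.b₆ :=
      ⟨(s ^ 3 - W.b₄ * s - W.b₆) / (6 * s + W.b₂), div_mul_cancel₀ _ h6⟩
    refine ⟨s, v, ?_, ?_⟩
    · linear_combination (-1 : K) * hv
    · have : (6 * s + W.b₂) ^ 2 * (s ^ 4 - 8 * s ^ 2 * v + 10 * v ^ 2 - W.b₂ * s * v
          - W.b₄ * s ^ 2 - 2 * W.b₄ * v - 3 * W.b₆ * s - 2 * W.b₈) = 0 := by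
        linear_combination hs + ((-8 * s ^ 2 - W.b₂ * s - 2 * W.b₄) * (6 * s + W.b₂)
          + 10 * (v * (6 * s + W.b₂) + (s ^ 3 - W.b₄ * s - W.b₆))) * hv
      exact (mul_eq_zero.mp this).resolve_left (pow_ne_zero 2 h6)

open Polynomial in
/-- A pair of abscissae exchanged by duplication. -/
theorem exists_pair (hΔ : W.Δ ≠ 0) :
    ∃ x₁ x₂ : K, x₁ ≠ x₂ ∧ x₂ * dblDen W x₁ = dblNum W x₁ ∧ x₁ * dblDen W x₂ = dblNum W x₂ := by
  have h2 : (2 : K) ≠ 0 := by norm_num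
  obtain ⟨s, v, hR1, hR2⟩ := exists_sv_closed W
  obtain ⟨x₁, hx₁⟩ := exists_root_of_natDegree_pos (X ^ 2 - C s * X + C v : K[X]) (by
    have : (X ^ 2 - C s * X + C v : K[X]).natDegree = 2 := by compute_degree!
    omega)
  simp only [eval_add, eval_mul, eval_C, eval_pow, eval_X, eval_sub] at hx₁
  have hv : v = x₁ * (s - x₁) := by linear_combination hx₁
  set x₂ := s - x₁ with hx₂
  have hs : s = x₁ + x₂ := by rw [hx₂]; ring
  subst hv
  rw [hs] at hR1 hR2
  have hsub : (x₂ * dblDen W x₁ - dblNum W x₁) - (x₁ * dblDen W x₂ - dblNum W x₂) = 0 := by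
    unfold dblDen dblNum
    linear_combination (-(x₁ - x₂)) * hR1
  have hadd : (x₂ * dblDen W x₁ - dblNum W x₁) + (x₁ * dblDen W x₂ - dblNum W x₂) = 0 := by
    unfold dblDen dblNum
    linear_combination (-1 : K) * hR2
  have hA : x₂ * dblDen W x₁ - dblNum W x₁ = 0 := by
    have : 2 * (x₂ * dblDen W x₁ - dblNum W x₁) = 0 := by linear_combination hsub + hadd
    exact (mul_eq_zero.mp this).resolve_left h2
  have hB : x₁ * dblDen W x₂ - dblNum W x₂ = 0 := by linear_combination hadd - hA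
  refine ⟨x₁, x₂, ?_, sub_eq_zero.mp hA, sub_eq_zero.mp hB⟩
  intro heq
  rw [← heq] at hR1 hR2 hA
  have hden : dblDen W x₁ = 0 := by
    unfold dblDen
    linear_combination (-1 : K) * hR1
  have hnum : dblNum W x₁ = 0 := by
    rw [hden] at hA
    linear_combination (-1 : K) * hA
  exact not_both_zero W hΔ hnum hden

end Exist

open Exist Polynomial in
theorem exists_three_torsion (hΔ : W.Δ ≠ 0) : ∃ P : W.Point, P ≠ 0 ∧ (3 : ℤ) • P = 0 := by
  have h3 : (3 : K) ≠ 0 := by norm_num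
  obtain ⟨x, hx⟩ := exists_root_of_natDegree_pos
    (C 3 * X ^ 4 + C W.b₂ * X ^ 3 + C (3 * W.b₄) * X ^ 2 + C (3 * W.b₆) * X + C W.b₈ : K[X]) (by
      have : (C 3 * X ^ 4 + C W.b₂ * X ^ 3 + C (3 * W.b₄) * X ^ 2 + C (3 * W.b₆) * X + C W.b₈ :
          K[X]).natDegree = 4 := by compute_degree!
      omega)
  simp only [eval_add, eval_mul, eval_C, eval_pow, eval_X] at hx
  obtain ⟨y, h⟩ := exists_point W hΔ x
  have hxx : x * dblDen W x = dblNum W x := by
    unfold dblDen dblNum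
    linear_combination hx
  obtain ⟨y₂, h₂, hadd⟩ := dbl_eq W hΔ h hxx
  refine ⟨Point.some x y h, Point.some_ne_zero h, ?_⟩
  rcases (X_eq_iff (h₁ := h₂) (h₂ := h)).mp rfl with heq | heq
  · exfalso
    rw [heq] at hadd
    exact Point.some_ne_zero h (by simp at hadd)
  · rw [heq] at hadd
    have : (3 : ℤ) • Point.some x y h =
        (Point.some x y h + Point.some x y h) + Point.some x y h := by
      abel
    rw [this, hadd]
    abel

open Exist Polynomial in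
theorem exists_five_torsion (hΔ : W.Δ ≠ 0) : ∃ P : W.Point, P ≠ 0 ∧ (5 : ℤ) • P = 0 := by
  obtain ⟨x₁, x₂, hne, h12, h21⟩ := exists_pair W hΔ
  obtain ⟨y₁, h₁⟩ := exists_point W hΔ x₁
  obtain ⟨y₂, h₂, hadd₁⟩ := dbl_eq W hΔ h₁ h12
  obtain ⟨y₃, h₃, hadd₂⟩ := dbl_eq W hΔ h₂ h21
  refine ⟨Point.some x₁ y₁ h₁, Point.some_ne_zero h₁, ?_⟩
  set P := Point.some x₁ y₁ h₁ with hP
  have h4 : (4 : ℤ) • P = Point.some x₁ y₃ h₃ := by
    rw [← hadd₂, ← hadd₁]
    abel
  rcases (X_eq_iff (h₁ := h₃) (h₂ := h₁)).mp rfl with heq | heq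
  · exfalso
    -- `4P = P`, so `2P = -P`, so `x₂ = x₁`
    rw [heq, ← hP] at h4
    have h2 : Point.some x₂ y₂ h₂ = -P := by
      rw [← hadd₁]
      have : (P + P) + P = 0 := by
        have h5 : (4 : ℤ) • P - P = 0 := by rw [h4, sub_self]
        rw [← h5]
        abel
      exact eq_neg_of_add_eq_zero_left this
    exact hne ((X_eq_iff (h₁ := h₂) (h₂ := h₁)).mpr (Or.inr h2)).symm
  · rw [heq, ← hP] at h4
    have : (5 : ℤ) • P = (4 : ℤ) • P + P := by abel
    rw [this, h4]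
    abel

end Fermat.Agent.S51
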