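import Fermat.Agent.S51.Core1
import Fermat.Agent.S51.Core2
import Fermat.Agent.S51.Exist

/-! S51 piece Five. -/

set_option autoImplicit false
open WeierstrassCurve WeierstrassCurve.Affine WeierstrassCurve.Affine.Point

namespace Fermat.Agent.S51

namespace Five

section general
variable {K : Type*} [Field K] (W : WeierstrassCurve.Affine K)

/-- structure of a point of order five in terms of x-coordinates -/
theorem five_torsion_x [DecidableEq K] {x₁ y₁ : K} (h₁ : W.Nonsingular x₁ y₁)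
    (h5 : (5 : ℤ) • (Point.some x₁ y₁ h₁ : W.Point) = 0) :
    ∃ (x₂ y₂ : K) (h₂ : W.Nonsingular x₂ y₂),
      (Point.some x₁ y₁ h₁ : W.Point) + Point.some x₁ y₁ h₁ = Point.some x₂ y₂ h₂ ∧
      dblDen W x₁ ≠ 0 ∧ dblDen W x₂ ≠ 0 ∧ x₂ * dblDen W x₁ = dblNum W x₁ ∧
      x₁ * dblDen W x₂ = dblNum W x₂ ∧ x₁ ≠ x₂ := by
  set P : W.Point := Point.some x₁ y₁ h₁ with hP
  have hP0 : P ≠ 0 := some_ne_zero h₁
  have h5' : P + P + P + P + P = 0 := by
    have : (5 : ℤ) • P = P + P + P + P + P := by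
      rw [show (5 : ℤ) = 1 + 1 + 1 + 1 + 1 by norm_num]
      simp only [add_smul, one_smul]
    rw [← this]; exact h5
  rcases dbl_some W h₁ with ⟨h2, -⟩ | ⟨hd1, x₂, y₂, h₂, h2, hx2⟩
  · exfalso
    apply hP0
    have : P + P + P + P + P = (P + P) + (P + P) + P := by abel
    rw [this, h2] at h5'
    simpa using h5'
  · rcases dbl_some W h₂ with ⟨h4, -⟩ | ⟨hd2, x₄, y₄, h₄, h4, hx4⟩
    · exfalso
      apply hP0
      have : P + P + P + P + P = (P + P) + (P + P) + P := by abel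
      rw [this, h2, h4] at h5'
      simpa using h5'
    · refine ⟨x₂, y₂, h₂, h2, hd1, hd2, hx2, ?_, ?_⟩
      · -- 4P = -P
        have h4P : Point.some x₄ y₄ h₄ = -P := by
          rw [← h4, ← h2]
          rw [eq_neg_iff_add_eq_zero]
          rw [← h5']; abel
        have : x₄ = x₁ := by
          rw [X_eq_iff (h₁ := h₄) (h₂ := h₁)]
          right; exact h4P
        rw [← this]; exact hx4
      · intro hx
        have := (X_eq_iff (h₁ := h₁) (h₂ := h₂)).1 hx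
        rw [← h2] at this
        rcases this with h | h
        · -- P = P + P
          apply hP0
          have : P + P = P + 0 := by rw [add_zero]; exact h.symm
          exact add_left_cancel this
        · -- P = -(P+P), 3P = 0
          apply hP0
          have h3 : P + P + P = 0 := by
            have : P + (P + P) = 0 := by
              rw [eq_neg_iff_add_eq_zero] at h; exact h
            rw [← this]; abel
          have : P + P + P + P + P = (P + P + P) + (P + P + P) - P := by abel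
          rw [this, h3] at h5'
          simpa using h5'

open Polynomial in
/-- numerator polynomial -/
noncomputable def nP : Polynomial K := X^4 - C W.b₄ * X^2 - C (2*W.b₆) * X - C W.b₈
open Polynomial in
/-- denominator polynomial -/
noncomputable def dP : Polynomial K := C 4 * X^3 + C W.b₂ * X^2 + C (2*W.b₄) * X + C W.b₆

open Polynomial in
/-- a polynomial killing the x-coordinates of the points of order five -/
noncomputable def G5 : Polynomial K :=
  (nP W)^4 - C W.b₄ * (nP W)^2 * (dP W)^2 - C (2*W.b₆) * (nP W) * (dP W)^3 - C W.b₈ * (dP W)^4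
    - X * (dP W) * (C 4 * (nP W)^3 + C W.b₂ * (nP W)^2 * (dP W) + C (2*W.b₄) * (nP W) * (dP W)^2
      + C W.b₆ * (dP W)^3)

theorem eval_nP (x : K) : (nP W).eval x = dblNum W x := by
  simp [nP, dblNum]

theorem eval_dP (x : K) : (dP W).eval x = dblDen W x := by
  simp [dP, dblDen]

theorem natDegree_G5_le : (G5 W).natDegree ≤ 16 := by
  unfold G5 nP dP
  compute_degree

theorem coeff_G5 : (G5 W).coeff 16 = -15 := by
  unfold G5 nP dP
  compute_degree
  all_goals norm_num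

theorem G5_ne_zero [CharZero K] : G5 W ≠ 0 := by
  intro h
  have := coeff_G5 W
  rw [h] at this
  simp at this

theorem eval_G5 {x₁ x₂ : K} (hx2 : x₂ * dblDen W x₁ = dblNum W x₁)
    (hx1 : x₁ * dblDen W x₂ = dblNum W x₂) : (G5 W).eval x₁ = 0 := by
  have e : (G5 W).eval x₁ = (dblNum W x₁)^4 - W.b₄ * (dblNum W x₁)^2 * (dblDen W x₁)^2
      - (2*W.b₆) * (dblNum W x₁) * (dblDen W x₁)^3 - W.b₈ * (dblDen W x₁)^4
      - x₁ * (dblDen W x₁) * (4 * (dblNum W x₁)^3 + W.b₂ * (dblNum W x₁)^2 * (dblDen W x₁)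
        + (2*W.b₄) * (dblNum W x₁) * (dblDen W x₁)^2 + W.b₆ * (dblDen W x₁)^3) := by
    simp [G5, eval_nP, eval_dP]
  rw [e, ← hx2]
  have : dblNum W x₂ - x₁ * dblDen W x₂ = 0 := by rw [hx1]; ring
  unfold dblNum dblDen at this
  generalize dblDen W x₁ = d
  linear_combination d^4 * this

/-- the two symmetric relations -/
theorem relations {x₁ x₂ : K} (hx2 : x₂ * dblDen W x₁ = dblNum W x₁)
    (hx1 : x₁ * dblDen W x₂ = dblNum W x₂) (hne : x₁ ≠ x₂) :
    (x₁ + x₂)^3 - 6*(x₁ + x₂)*(x₁*x₂) - W.b₂*(x₁*x₂) - W.b₄*(x₁ + x₂) - W.b₆ = 0 ∧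
    (x₁ + x₂)^4 - 8*(x₁ + x₂)^2*(x₁*x₂) + 10*(x₁*x₂)^2 - W.b₂*(x₁ + x₂)*(x₁*x₂)
      - W.b₄*(x₁ + x₂)^2 - 2*W.b₄*(x₁*x₂) - 3*W.b₆*(x₁ + x₂) - 2*W.b₈ = 0 := by
  unfold dblNum dblDen at hx1 hx2
  constructor
  · have hne' : x₁ - x₂ ≠ 0 := sub_ne_zero.mpr hne
    apply mul_left_cancel₀ hne'
    linear_combination hx1 - hx2
  · linear_combination (-1 : K) * hx1 - hx2

end general

section rat

variable (E : WeierstrassCurve ℚ)
local notation "Kb" => AlgebraicClosure ℚ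

theorem b2_eq : (E⁄Kb).toAffine.b₂ = algebraMap ℚ Kb E.b₂ := map_b₂ E (algebraMap ℚ Kb)
theorem b4_eq : (E⁄Kb).toAffine.b₄ = algebraMap ℚ Kb E.b₄ := map_b₄ E (algebraMap ℚ Kb)
theorem b6_eq : (E⁄Kb).toAffine.b₆ = algebraMap ℚ Kb E.b₆ := map_b₆ E (algebraMap ℚ Kb)
theorem b8_eq : (E⁄Kb).toAffine.b₈ = algebraMap ℚ Kb E.b₈ := map_b₈ E (algebraMap ℚ Kb)
theorem Δ_eq : (E⁄Kb).toAffine.Δ = algebraMap ℚ Kb E.Δ := map_Δ E (algebraMap ℚ Kb)

theorem map_dblNum (σ : Kb ≃ₐ[ℚ] Kb) (x : Kb) :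
    σ (dblNum (E⁄Kb).toAffine x) = dblNum (E⁄Kb).toAffine (σ x) := by
  unfold dblNum
  simp only [b4_eq, b6_eq, b8_eq, map_sub, map_mul, map_pow, AlgEquiv.commutes, map_ofNat]

theorem map_dblDen (σ : Kb ≃ₐ[ℚ] Kb) (x : Kb) :
    σ (dblDen (E⁄Kb).toAffine x) = dblDen (E⁄Kb).toAffine (σ x) := by
  unfold dblDen
  simp only [b2_eq, b4_eq, b6_eq, map_add, map_mul, map_pow, AlgEquiv.commutes, map_ofNat]

end rat

end Five

open Five in
theorem exists_sv (E : WeierstrassCurve ℚ) (hΔ : E.Δ ≠ 0)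
    (h : ¬ GaloisRepIsIrreducible (K := AlgebraicClosure ℚ) ℚ E 5) :
    ∃ s v : ℚ, s^2 - 4*v ≠ 0 ∧ s^3 - 6*s*v - E.b₂*v - E.b₄*s - E.b₆ = 0 ∧
      s^4 - 8*s^2*v + 10*v^2 - E.b₂*s*v - E.b₄*s^2 - 2*E.b₄*v - 3*E.b₆*s - 2*E.b₈ = 0 := by
  set W : Affine (AlgebraicClosure ℚ) := (E⁄(AlgebraicClosure ℚ)).toAffine with hW
  have hΔ' : W.Δ ≠ 0 := by
    rw [hW, Δ_eq]
    exact (map_ne_zero _).mpr hΔ
  have hnt : Nontrivial (Submodule.torsionBy ℤ W.Point (5 : ℕ)) := by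
    obtain ⟨P, hP0, hP5⟩ := exists_five_torsion W hΔ'
    refine ⟨⟨⟨P, ?_⟩, 0, ?_⟩⟩
    · rw [Submodule.mem_torsionBy_iff]; exact_mod_cast hP5
    · intro h; apply hP0; exact congrArg Subtype.val h
  have hN : ∃ N : Submodule (ZMod 5) (Submodule.torsionBy ℤ W.Point (5 : ℕ)),
      IsGaloisStable ℚ N ∧ N ≠ ⊥ ∧ N ≠ ⊤ := by
    by_contra hcon
    push Not at hcon
    apply h
    refine ⟨hnt, fun N hN => ?_⟩
    by_contra hh
    push Not at hh
    exact hh.2 (hcon N hN hh.1)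
  obtain ⟨N, hst, h0, h1⟩ := hN
  obtain ⟨hfin, hle⟩ := card_torsion_le E 5 (G5 W) (G5_ne_zero W) (fun x y hxy h5 => by
    obtain ⟨x₂, y₂, h₂, -, -, -, hx2, hx1, -⟩ := five_torsion_x W hxy (by exact_mod_cast h5)
    exact eval_G5 W hx2 hx1)
  have := hfin
  have : Fact (Nat.Prime 5) := ⟨by norm_num⟩
  obtain ⟨P, hPN, hP0, hgen⟩ := exists_generator E 5 (by
    have := natDegree_G5_le W
    omega) N h0 h1
  obtain ⟨x₁, y₁, h₁, hPc⟩ : ∃ x₁ y₁ h₁, (P : W.Point) = Point.some x₁ y₁ h₁ := by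
    rcases hPc : (P : W.Point) with _ | ⟨x, y, hxy⟩
    · exact absurd (Subtype.ext hPc) hP0
    · exact ⟨x, y, hxy, rfl⟩
  have h5 : (5 : ℤ) • (Point.some x₁ y₁ h₁ : W.Point) = 0 := by
    have := P.2
    rw [Submodule.mem_torsionBy_iff, hPc] at this
    exact_mod_cast this
  obtain ⟨x₂, y₂, h₂, hdbl, hd1, hd2, hx2, hx1, hne⟩ := five_torsion_x W h₁ h5
  have key1 : ∀ σ : AlgebraicClosure ℚ ≃ₐ[ℚ] AlgebraicClosure ℚ, σ x₁ = x₁ ∨ σ x₁ = x₂ := by
    intro σ
    obtain ⟨k, hk, hkP⟩ := hgen (σ • P) (hst σ P hPN)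
    obtain ⟨h', hσ⟩ := smul_some E σ h₁
    have hkP' : (Point.some (σ x₁) (σ y₁) h' : W.Point) = k • (Point.some x₁ y₁ h₁ : W.Point) := by
      rw [← hσ, ← hPc]
      exact congrArg Subtype.val hkP
    set Q : W.Point := Point.some x₁ y₁ h₁ with hQ
    have h5' : Q + Q + Q + Q + Q = 0 := by
      have : (5 : ℤ) • Q = Q + Q + Q + Q + Q := by abel
      rw [← this]; exact h5
    interval_cases k
    · exact absurd (by rw [hkP']; abel) (some_ne_zero h')
    · left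
      rw [X_eq_iff (h₁ := h') (h₂ := h₁)]
      left; rw [hkP']; abel
    · right
      rw [X_eq_iff (h₁ := h') (h₂ := h₂)]
      left; rw [hkP', ← hdbl]; abel
    · right
      rw [X_eq_iff (h₁ := h') (h₂ := h₂)]
      right; rw [hkP', ← hdbl, eq_neg_iff_add_eq_zero, ← h5']
      abel
    · left
      rw [X_eq_iff (h₁ := h') (h₂ := h₁)]
      right; rw [hkP', eq_neg_iff_add_eq_zero, ← h5']
      abel
  have key2 : ∀ σ : AlgebraicClosure ℚ ≃ₐ[ℚ] AlgebraicClosure ℚ,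
      (σ x₁ = x₁ ∧ σ x₂ = x₂) ∨ (σ x₁ = x₂ ∧ σ x₂ = x₁) := by
    intro σ
    have e : σ x₂ * dblDen W (σ x₁) = dblNum W (σ x₁) := by
      rw [hW, ← map_dblDen, ← map_dblNum, ← map_mul, ← hW, hx2]
    rcases key1 σ with hσ | hσ
    · left
      refine ⟨hσ, ?_⟩
      rw [hσ, ← hx2] at e
      exact mul_right_cancel₀ hd1 e
    · right
      refine ⟨hσ, ?_⟩
      rw [hσ, ← hx1] at e
      exact mul_right_cancel₀ hd2 e
  obtain ⟨s, hs⟩ := mem_rat_of_fixed (x₁ + x₂) (fun σ => by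
    rcases key2 σ with ⟨e1, e2⟩ | ⟨e1, e2⟩
    · rw [map_add, e1, e2]
    · rw [map_add, e1, e2, add_comm])
  obtain ⟨v, hv⟩ := mem_rat_of_fixed (x₁ * x₂) (fun σ => by
    rcases key2 σ with ⟨e1, e2⟩ | ⟨e1, e2⟩
    · rw [map_mul, e1, e2]
    · rw [map_mul, e1, e2, mul_comm])
  obtain ⟨R1, R2⟩ := relations W hx2 hx1 hne
  have hinj : Function.Injective (algebraMap ℚ (AlgebraicClosure ℚ)) :=
    (algebraMap ℚ (AlgebraicClosure ℚ)).injective
  refine ⟨s, v, ?_, ?_, ?_⟩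
  · intro h0
    have := congrArg (algebraMap ℚ (AlgebraicClosure ℚ)) h0
    simp only [map_sub, map_mul, map_pow, map_ofNat, _root_.map_zero, hs, hv] at this
    apply hne
    have h2 : (x₁ - x₂)^2 = 0 := by linear_combination this
    exact sub_eq_zero.mp (pow_eq_zero_iff (two_ne_zero)|>.mp h2)
  · apply hinj
    simp only [map_sub, map_mul, map_pow, map_ofNat, _root_.map_zero, hs, hv]
    rw [← b2_eq, ← b4_eq, ← b6_eq]
    exact R1
  · apply hinj
    simp only [map_sub, map_add, map_mul, map_pow, map_ofNat, _root_.map_zero, hs, hv]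
    rw [← b2_eq, ← b4_eq, ← b6_eq, ← b8_eq]
    exact R2

end Fermat.Agent.S51
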