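import Fermat.Agent.S51.Core1
import Fermat.Agent.S51.Core2
import Fermat.Agent.S51.Exist

/-! S51 piece Three. -/

set_option autoImplicit false
open WeierstrassCurve WeierstrassCurve.Affine WeierstrassCurve.Affine.Point

namespace Fermat.Agent.S51

namespace Three

theorem two_smul_eq_neg {K : Type*} [Field K] [DecidableEq K] (W : WeierstrassCurve.Affine K)
    (P : W.Point) (h3 : (3 : ℤ) • P = 0) : P + P = - P := by
  have : (3 : ℤ) • P = P + P + P := by
    rw [show (3 : ℤ) = 1 + 1 + 1 by norm_num, add_smul, add_smul, one_smul]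
  rw [this] at h3
  exact eq_neg_of_add_eq_zero_left h3

theorem psi3_of_three_smul {K : Type*} [Field K] [DecidableEq K] (W : WeierstrassCurve.Affine K)
    {x y : K} (h : W.Nonsingular x y) (h3 : (3 : ℤ) • Point.some x y h = 0) :
    3*x^4 + W.b₂*x^3 + 3*W.b₄*x^2 + 3*W.b₆*x + W.b₈ = 0 := by
  have h2 := two_smul_eq_neg W _ h3
  rcases dbl_some W h with ⟨h0, _⟩ | ⟨hd, x', y', h', heq, hx⟩
  · rw [h0] at h2
    have h4 : Point.some x y h = 0 := neg_eq_zero.mp h2.symm
    exact absurd h4 (Point.some_ne_zero _)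
  · rw [heq, Point.neg_some] at h2
    have h5 : x' = x := by
      injection h2
    rw [h5] at hx
    simp only [dblNum, dblDen] at hx
    linear_combination hx

end Three

theorem exists_root_psi3 (E : WeierstrassCurve ℚ) (hΔ : E.Δ ≠ 0)
    (h : ¬ GaloisRepIsIrreducible (K := AlgebraicClosure ℚ) ℚ E 3) :
    ∃ x : ℚ, 3*x^4 + E.b₂*x^3 + 3*E.b₄*x^2 + 3*E.b₆*x + E.b₈ = 0 := by
  have hΔ' : (E⁄(AlgebraicClosure ℚ)).Δ ≠ 0 := by
    show (E.map (algebraMap ℚ (AlgebraicClosure ℚ))).Δ ≠ 0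
    rw [map_Δ]
    exact (map_ne_zero _).mpr hΔ
  obtain ⟨P0, hP0, hP03⟩ := exists_three_torsion (E⁄(AlgebraicClosure ℚ)).toAffine hΔ'
  have hnt : Nontrivial (Submodule.torsionBy ℤ (E⁄(AlgebraicClosure ℚ)).toAffine.Point 3) :=
    ⟨⟨P0, (Submodule.mem_torsionBy_iff _ _).2 hP03⟩, 0, fun h => hP0 (congrArg Subtype.val h)⟩
  unfold GaloisRepIsIrreducible at h
  push Not at h
  obtain ⟨N, hN, hN0, hN1⟩ := h hnt
  set W := (E⁄(AlgebraicClosure ℚ)).toAffine with hW
  let G : Polynomial (AlgebraicClosure ℚ) :=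
    Polynomial.C 3 * Polynomial.X ^ 4 + Polynomial.C W.b₂ * Polynomial.X ^ 3
      + Polynomial.C (3 * W.b₄) * Polynomial.X ^ 2 + Polynomial.C (3 * W.b₆) * Polynomial.X
      + Polynomial.C W.b₈
  have hGdeg : G.natDegree = 4 := by
    simp only [G]
    compute_degree!
  have hG0 : G ≠ 0 := by
    intro h0
    rw [h0] at hGdeg
    simp at hGdeg
  have hG : ∀ (x y : AlgebraicClosure ℚ) (hxy : W.Nonsingular x y),
      ((3 : ℕ) : ℤ) • (Point.some x y hxy : W.Point) = 0 → G.eval x = 0 := by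
    intro x y hxy h3
    have := Three.psi3_of_three_smul W hxy h3
    simp only [G, Polynomial.eval_add, Polynomial.eval_mul, Polynomial.eval_C,
      Polynomial.eval_pow, Polynomial.eval_X]
    linear_combination this
  obtain ⟨hfin, hcard⟩ := card_torsion_le E 3 G hG0 hG
  have := hfin
  have : Fact (Nat.Prime 3) := ⟨by norm_num⟩
  obtain ⟨P, hPN, hP0, hgen⟩ :=
    exists_generator E 3 (by rw [hGdeg] at hcard; omega) N hN0 hN1
  obtain ⟨P, hP3⟩ := P
  rcases P with _ | ⟨x, y, hxy⟩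
  · exact absurd rfl hP0
  · have h3 : (3 : ℤ) • (Point.some x y hxy : W.Point) = 0 :=
      (Submodule.mem_torsionBy_iff _ _).1 hP3
    have hfix : ∀ σ : AlgebraicClosure ℚ ≃ₐ[ℚ] AlgebraicClosure ℚ, σ x = x := by
      intro σ
      obtain ⟨k, hk, hkP⟩ := hgen _ (hN σ _ hPN)
      have hkP' : σ • (Point.some x y hxy : W.Point) = k • (Point.some x y hxy : W.Point) :=
        congrArg Subtype.val hkP
      obtain ⟨h', hσ⟩ := smul_some E σ hxy
      rw [hσ] at hkP'
      interval_cases k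
      · rw [zero_nsmul] at hkP'
        exact absurd hkP' (Point.some_ne_zero _)
      · rw [one_nsmul] at hkP'
        injection hkP'
      · rw [two_nsmul, Three.two_smul_eq_neg W _ h3, Point.neg_some] at hkP'
        injection hkP'
    obtain ⟨q, hq⟩ := mem_rat_of_fixed x hfix
    refine ⟨q, ?_⟩
    have key := Three.psi3_of_three_smul W hxy h3
    rw [← hq] at key
    apply (algebraMap ℚ (AlgebraicClosure ℚ)).injective
    have e2 : W.b₂ = algebraMap ℚ (AlgebraicClosure ℚ) E.b₂ := map_b₂ E _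
    have e4 : W.b₄ = algebraMap ℚ (AlgebraicClosure ℚ) E.b₄ := map_b₄ E _
    have e6 : W.b₆ = algebraMap ℚ (AlgebraicClosure ℚ) E.b₆ := map_b₆ E _
    have e8 : W.b₈ = algebraMap ℚ (AlgebraicClosure ℚ) E.b₈ := map_b₈ E _
    rw [e2, e4, e6, e8] at key
    simp only [map_add, map_mul, map_pow, map_ofNat, _root_.map_zero]
    exact key

end Fermat.Agent.S51
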