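import Fermat.Statements.S51

/-! S51 piece Core1: duplication on x-coordinates, general field. -/

set_option autoImplicit false
open WeierstrassCurve WeierstrassCurve.Affine WeierstrassCurve.Affine.Point

namespace Fermat.Agent.S51

variable {K : Type*} [Field K] [DecidableEq K] (W : WeierstrassCurve.Affine K)

/-- numerator of the x-coordinate duplication map -/
def dblNum (x : K) : K := x^4 - W.b₄*x^2 - 2*W.b₆*x - W.b₈
/-- denominator of the x-coordinate duplication map -/
def dblDen (x : K) : K := 4*x^3 + W.b₂*x^2 + 2*W.b₄*x + W.b₆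

/-- Bezout identity between numerator and denominator. -/
theorem bezout (x : K) :
    (-48*x^2 - 8*W.b₂*x + W.b₂^2 - 32*W.b₄) * dblNum W x
      + (12*x^3 - W.b₂*x^2 - 10*W.b₄*x + W.b₂*W.b₄ - 27*W.b₆) * dblDen W x = W.Δ := by
  simp only [dblNum, dblDen, WeierstrassCurve.Δ, WeierstrassCurve.b₂, WeierstrassCurve.b₄,
    WeierstrassCurve.b₆, WeierstrassCurve.b₈]
  ring

namespace Core1

theorem dblDen_eq {x y : K} (h : W.Equation x y) :
    dblDen W x = (y - W.negY x y) ^ 2 := by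
  rw [Affine.equation_iff] at h
  simp only [dblDen, Affine.negY, WeierstrassCurve.b₂, WeierstrassCurve.b₄, WeierstrassCurve.b₆]
  linear_combination (-4 : K) * h

theorem dbl_alg (a₁ a₂ a₃ a₄ a₆ x y n d : K) (hd : d ≠ 0)
    (hn : n = 3*x^2 + 2*a₂*x + a₄ - a₁*y) (hdd : d = y - (-y - a₁*x - a₃))
    (heq : y^2 + a₁*x*y + a₃*y = x^3 + a₂*x^2 + a₄*x + a₆) :
    ((n/d)^2 + a₁*(n/d) - a₂ - x - x) * d^2 =
      x^4 - (2*a₄ + a₁*a₃)*x^2 - 2*(a₃^2 + 4*a₆)*x
        - (a₁^2*a₆ + 4*a₂*a₆ - a₁*a₃*a₄ + a₂*a₃^2 - a₄^2) := by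
  have h1 : ((n/d)^2 + a₁*(n/d) - a₂ - x - x) * d^2 = n^2 + a₁*n*d - (a₂+2*x)*d^2 := by
    field_simp
    ring
  rw [h1, hn, hdd]
  linear_combination (-(4*a₂ + 8*x + a₁^2)) * heq

end Core1

/-- duplication formula on x-coordinates -/
theorem dbl_some {x y : K} (h : W.Nonsingular x y) :
    (Point.some x y h + Point.some x y h = 0 ∧ dblDen W x = 0) ∨
    (dblDen W x ≠ 0 ∧ ∃ (x' y' : K) (h' : W.Nonsingular x' y'),
      Point.some x y h + Point.some x y h = Point.some x' y' h' ∧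
        x' * dblDen W x = dblNum W x) := by
  have hden := Core1.dblDen_eq W h.1
  by_cases hy : y = W.negY x y
  · left
    refine ⟨Point.add_self_of_Y_eq hy, ?_⟩
    rw [hden, sub_eq_zero.mpr hy]
    ring
  · right
    have hne : y - W.negY x y ≠ 0 := sub_ne_zero.mpr hy
    refine ⟨by rw [hden]; exact pow_ne_zero 2 hne, _, _, _, Point.add_self_of_Y_ne hy, ?_⟩
    rw [hden, Affine.slope_of_Y_ne rfl hy, Affine.addX]
    have heq := h.1
    rw [Affine.equation_iff] at heq
    exact Core1.dbl_alg W.a₁ W.a₂ W.a₃ W.a₄ W.a₆ x y _ _ hne rfl rfl heq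

/-- every x is the x-coordinate of a point -/
theorem exists_point [IsAlgClosed K] (hΔ : W.Δ ≠ 0) (x : K) : ∃ y : K, W.Nonsingular x y := by
  classical
  let p : Polynomial K := Polynomial.X ^ 2 + Polynomial.C (W.a₁ * x + W.a₃) * Polynomial.X
    - Polynomial.C (x^3 + W.a₂*x^2 + W.a₄*x + W.a₆)
  have hdeg : p.degree ≠ 0 := by
    have : p.degree = 2 := by
      simp only [p]
      compute_degree!
    rw [this]
    norm_num
  obtain ⟨y, hy⟩ := IsAlgClosed.exists_root p hdeg
  refine ⟨y, (W.equation_iff_nonsingular_of_Δ_ne_zero hΔ).mp ?_⟩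
  rw [Affine.equation_iff]
  simp only [p, Polynomial.IsRoot.def, Polynomial.eval_sub, Polynomial.eval_add,
    Polynomial.eval_pow, Polynomial.eval_X, Polynomial.eval_mul, Polynomial.eval_C] at hy
  linear_combination hy

end Fermat.Agent.S51
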